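import Mathlib
import Fermat.Prelude.Def_ModularCurve_X0

/-!
# helper12: S28 WP1 slice (A) — bridge between analytic `q`-expansions and the prelude's
formal series

* `H23M.qExpansion_E4`   : `qExpansion 1 E₄ = map ℤ→ℂ ModularCurve.eisenstein4`
* `H23M.qExpansion_disc` : `qExpansion 1 Δ = map ℤ→ℂ (X * ModularCurve.dedekindEtaUnit)`

Reusable: `H23M.h12_tendsto_iteratedDeriv` (Weierstrass: Taylor coefficients of a locally uniform
limit), `H23M.h12_iteratedDeriv_poly_zero`.
-/

set_option autoImplicit false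

noncomputable section

namespace H23M

open UpperHalfPlane ModularForm ModularFormClass EisensteinSeries Filter Topology
open scoped MatrixGroups PowerSeries.WithPiTopology

theorem qExpansion_E4 :
    UpperHalfPlane.qExpansion 1 (⇑ModularForm.E₄)
      = PowerSeries.map (Int.castRingHom ℂ) ModularCurve.eisenstein4 := by
  ext m
  rw [PowerSeries.coeff_map, ModularCurve.eisenstein4, PowerSeries.coeff_mk]
  have h := EisensteinSeries.E_qExpansion_coeff (k := 4) (by norm_num) ⟨2, rfl⟩ m
  rw [h]
  have hb : bernoulli 4 = -1 / 30 := by decide +kernel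
  by_cases hm : m = 0
  · simp [hm]
  · simp only [hm, if_false]
    rw [hb, ArithmeticFunction.sigma_apply]
    push_cast
    norm_num

/-- Weierstrass: Taylor coefficients at `0` of a locally uniform limit of holomorphic functions
are the limits of the Taylor coefficients. -/
theorem h12_tendsto_iteratedDeriv {ι : Type*} {φ : Filter ι} [φ.NeBot] {U : Set ℂ} (hU : IsOpen U)
    {F : ι → ℂ → ℂ} {f : ℂ → ℂ} (hf : TendstoLocallyUniformlyOn F f φ U)
    (hF : ∀ n, DifferentiableOn ℂ (F n) U) (k : ℕ) :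
    TendstoLocallyUniformlyOn (fun n => iteratedDeriv k (F n)) (iteratedDeriv k f) φ U ∧
      ∀ n, DifferentiableOn ℂ (iteratedDeriv k (F n)) U := by
  induction k with
  | zero =>
    simp only [iteratedDeriv_zero]
    exact ⟨hf, hF⟩
  | succ k ih =>
    refine ⟨?_, fun n => ?_⟩
    · have := ih.1.deriv (Eventually.of_forall ih.2) hU
      simp only [iteratedDeriv_succ]
      exact this
    · rw [iteratedDeriv_succ]
      exact (ih.2 n).deriv hU

theorem h12_iteratedDeriv_poly (P : Polynomial ℂ) (k : ℕ) :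
    iteratedDeriv k (fun q : ℂ => P.eval q) = fun q => (Polynomial.derivative^[k] P).eval q := by
  induction k generalizing P with
  | zero => simp
  | succ k ih =>
    rw [iteratedDeriv_succ', Function.iterate_succ_apply]
    have : deriv (fun q : ℂ => P.eval q) = fun q => (Polynomial.derivative P).eval q := by
      funext q
      exact Polynomial.deriv P
    rw [this, ih]

theorem h12_iteratedDeriv_poly_zero (P : Polynomial ℂ) (k : ℕ) :
    iteratedDeriv k (fun q : ℂ => P.eval q) 0 = (k.factorial : ℂ) * P.coeff k := by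
  rw [h12_iteratedDeriv_poly]
  show Polynomial.eval 0 (Polynomial.derivative^[k] P) = _
  rw [← Polynomial.coeff_zero_eq_eval_zero, Polynomial.coeff_iterate_derivative]
  simp [Nat.descFactorial_self]


theorem h12_tendstoLocallyUniformlyOn_const {ι : Type*} (φ : Filter ι) (f : ℂ → ℂ) (U : Set ℂ) :
    TendstoLocallyUniformlyOn (fun (_ : ι) => f) f φ U := by
  intro u hu x _
  exact ⟨Set.univ, univ_mem, Eventually.of_forall fun _ y _ => refl_mem_uniformity hu⟩

/-- The partial products, as integer polynomials. -/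
def h12_etaPoly (s : Finset ℕ) : Polynomial ℤ :=
  Polynomial.X * (∏ i ∈ s, (1 - Polynomial.X ^ (i + 1))) ^ 24

/-- The analytic function `q ∏ (1 - q^n)^24` on the unit disc. -/
def h12_g (q : ℂ) : ℂ := q * (∏' i : ℕ, (1 - q ^ (i + 1))) ^ 24

theorem h12_tendsto_g :
    TendstoLocallyUniformlyOn
      (fun (s : Finset ℕ) (q : ℂ) => ((h12_etaPoly s).map (Int.castRingHom ℂ)).eval q)
      h12_g atTop (Metric.ball (0 : ℂ) 1) := by
  have h0 : TendstoLocallyUniformlyOn (fun (s : Finset ℕ) (q : ℂ) => ∏ i ∈ s, (1 - q ^ (i + 1)))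
      (fun q => ∏' i : ℕ, (1 - q ^ (i + 1))) atTop (Metric.ball (0 : ℂ) 1) :=
    ModularForm.multipliableLocallyUniformlyOn_one_sub_pow.hasProdLocallyUniformlyOn
  have hc0 : ContinuousOn (fun q : ℂ => ∏' i : ℕ, (1 - q ^ (i + 1))) (Metric.ball (0 : ℂ) 1) :=
    ModularForm.differentiableOn_tprod_one_sub_pow.continuousOn
  have hpow : ∀ n : ℕ, TendstoLocallyUniformlyOn
      (fun (s : Finset ℕ) (q : ℂ) => (∏ i ∈ s, (1 - q ^ (i + 1))) ^ n)
      (fun q => (∏' i : ℕ, (1 - q ^ (i + 1))) ^ n) atTop (Metric.ball (0 : ℂ) 1) ∧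
      ContinuousOn (fun q : ℂ => (∏' i : ℕ, (1 - q ^ (i + 1))) ^ n) (Metric.ball (0 : ℂ) 1) := by
    intro n
    induction n with
    | zero =>
      simp only [pow_zero]
      exact ⟨h12_tendstoLocallyUniformlyOn_const _ _ _, continuousOn_const⟩
    | succ n ih =>
      refine ⟨?_, hc0.pow _⟩
      have := ih.1.mul₀ h0 ih.2 hc0
      simp only [pow_succ]
      exact this
  have hid : TendstoLocallyUniformlyOn (fun (_ : Finset ℕ) (q : ℂ) => q)
      (fun q => q) atTop (Metric.ball (0 : ℂ) 1) := h12_tendstoLocallyUniformlyOn_const _ _ _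
  have := hid.mul₀ (hpow 24).1 continuousOn_id (hpow 24).2
  refine this.congr (fun s q hq => ?_)
  simp only [h12_etaPoly, Polynomial.map_mul, Polynomial.map_pow, Polynomial.map_X,
    Polynomial.eval_mul, Polynomial.eval_X, Polynomial.eval_pow, Pi.mul_apply,
    Polynomial.map_prod, Polynomial.eval_prod, Polynomial.map_sub, Polynomial.map_one,
    Polynomial.eval_sub, Polynomial.eval_one]


theorem h12_coe_etaPoly (s : Finset ℕ) :
    ((h12_etaPoly s : Polynomial ℤ) : PowerSeries ℤ)
      = PowerSeries.X * (∏ i ∈ s, (1 - PowerSeries.X ^ (i + 1))) ^ 24 := by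
  have h : ∀ P : Polynomial ℤ, (P : PowerSeries ℤ) = Polynomial.coeToPowerSeries.ringHom P :=
    fun _ => rfl
  rw [h, h12_etaPoly, map_mul, map_pow, map_prod]
  simp only [map_sub, map_one, map_pow]
  simp [Polynomial.coeToPowerSeries.ringHom_apply]

theorem h12_tendsto_formal (k : ℕ) :
    Tendsto (fun s : Finset ℕ => (((h12_etaPoly s).coeff k : ℤ) : ℂ)) atTop
      (𝓝 ((PowerSeries.coeff k (PowerSeries.X * ModularCurve.dedekindEtaUnit) : ℤ) : ℂ)) := by
  have h1 : Tendsto (fun s : Finset ℕ => ∏ i ∈ s, ((1 : PowerSeries ℤ) - PowerSeries.X ^ (i + 1)))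
      atTop (𝓝 ModularCurve.etaProd) :=
    (PowerSeries.WithPiTopology.multipliable_one_sub_X_pow ℤ).hasProd
  have h2 : Tendsto (fun s : Finset ℕ =>
      PowerSeries.X * (∏ i ∈ s, ((1 : PowerSeries ℤ) - PowerSeries.X ^ (i + 1))) ^ 24)
      atTop (𝓝 (PowerSeries.X * ModularCurve.etaProd ^ 24)) :=
    (h1.pow 24).const_mul _
  have h3 := ((PowerSeries.WithPiTopology.continuous_coeff ℤ k).tendsto _).comp h2
  have h4 := ((continuous_of_discreteTopology (f := (Int.cast : ℤ → ℂ))).tendsto _).comp h3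
  refine h4.congr (fun s => ?_)
  simp only [Function.comp_apply]
  rw [← h12_coe_etaPoly, Polynomial.coeff_coe]


theorem h12_iteratedDeriv_g (k : ℕ) :
    iteratedDeriv k h12_g 0
      = (k.factorial : ℂ) *
        ((PowerSeries.coeff k (PowerSeries.X * ModularCurve.dedekindEtaUnit) : ℤ) : ℂ) := by
  have hdiff : ∀ s : Finset ℕ, DifferentiableOn ℂ
      (fun q : ℂ => ((h12_etaPoly s).map (Int.castRingHom ℂ)).eval q) (Metric.ball (0 : ℂ) 1) :=
    fun s => (Polynomial.differentiable _).differentiableOn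
  have h1 := (h12_tendsto_iteratedDeriv Metric.isOpen_ball h12_tendsto_g hdiff k).1
  have h2 := h1.tendsto_at (Metric.mem_ball_self (one_pos : (0 : ℝ) < 1))
  simp only [h12_iteratedDeriv_poly_zero, Polynomial.coeff_map, eq_intCast] at h2
  have h3 := (h12_tendsto_formal k).const_mul (k.factorial : ℂ)
  exact tendsto_nhds_unique h2 h3

theorem qExpansion_disc :
    UpperHalfPlane.qExpansion 1 ModularForm.discriminant
      = PowerSeries.map (Int.castRingHom ℂ) (PowerSeries.X * ModularCurve.dedekindEtaUnit) := by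
  ext k
  rw [UpperHalfPlane.qExpansion_coeff, PowerSeries.coeff_map]
  have heq : UpperHalfPlane.cuspFunction 1 ModularForm.discriminant =ᶠ[𝓝 0] h12_g := by
    filter_upwards [Metric.isOpen_ball.mem_nhds (Metric.mem_ball_self (one_pos : (0 : ℝ) < 1))]
      with q hq
    rw [ModularForm.discriminant_cuspFunction_eqOn hq, h12_g]
    show q * ∏' (i : ℕ), (1 - q ^ (i + 1)) ^ 24 = _
    rw [(ModularForm.multipliable_one_sub_pow (by simpa using hq)).tprod_pow 24]
  rw [heq.iteratedDeriv_eq k, h12_iteratedDeriv_g, eq_intCast, ← mul_assoc,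
    inv_mul_cancel₀ (Nat.cast_ne_zero.mpr (Nat.factorial_ne_zero k)), one_mul]

end H23M

end
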