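import Fermat.Agent.S28.ModEq.Complex
import Fermat.Agent.S28.ModEq.Bridge

/-!
# helper23 (S28, WP1): the modular equations over `ℂ`, unconditionally
-/

set_option autoImplicit false

noncomputable section

namespace H23M

open ModularCurve H28S28 Polynomial

/-- **The modular equations over `ℂ`.** -/
theorem exists_complex_modEq (p : ℕ) [NeZero p] [Fact p.Prime] :
    ∃ ζ₀ : ℂˣ, (Polynomial.cyclotomic p ℂ).eval (ζ₀ : ℂ) = 0 ∧
      ∃ Φc Tc Gc : Polynomial (Polynomial ℂ),
        Φc.map (evC p) = ∏ i : Option (Fin p), (X - C (xconj ℂ p ζ₀ i)) ∧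
        Tc.map (evC p) = ∏ i : Option (Fin p), (X - C (yconj ℂ p ζ₀ i)) ∧
        Gc.map (evC p) = ∑ i : Option (Fin p), C (yconj ℂ p ζ₀ i) *
          ∏ i' ∈ Finset.univ.erase i, (X - C (xconj ℂ p ζ₀ i')) :=
  exists_complex_polys p qExpansion_E4 qExpansion_disc

end H23M

end
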