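import Fermat.Agent.S28.ModEq.Descent
import Fermat.Agent.S28.ModEq.ComplexMain

/-!
# S28, WP1: the modular equation package `HasModEq p` for every prime `p`
(assembly of helper23's analytic part `exists_complex_modEq` with the descent, slice G).
-/

set_option autoImplicit false

namespace H23M

/-- **WP1 output**: the modular equation package of level `p` exists for every prime `p`. -/
theorem h15g_hasModEq (p : ℕ) [NeZero p] [Fact p.Prime] : H28S28.HasModEq p := by
  obtain ⟨ζ₀, hζ₀, Φc, Tc, Gc, hΦ, hT, hG⟩ := exists_complex_modEq p
  exact hasModEq_of_complex_polys p ζ₀ hζ₀ Φc Tc Gc hΦ hT hG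

end H23M
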