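import Fermat.Agent.H23.ForwardAlg

/-!
# helper23 (S28, WP1): dehomogenisation of the coefficient polynomials (pure algebra)
-/

set_option autoImplicit false

noncomputable section

namespace H23M

open H23

section

variable {B : Type*} [CommRing B] [Algebra ℂ B]

theorem aeval_scale {φ : MvPolynomial (Fin 2) ℂ} {n : ℕ} (hφ : φ.IsHomogeneous n) (c : B)
    (x : Fin 2 → B) :
    MvPolynomial.aeval (fun i => c * x i) φ = c ^ n * MvPolynomial.aeval x φ := by
  rw [MvPolynomial.aeval_def, MvPolynomial.aeval_def, MvPolynomial.eval₂_eq,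
    MvPolynomial.eval₂_eq, Finset.mul_sum]
  refine Finset.sum_congr rfl fun d hd => ?_
  have hdeg : n = ∑ i ∈ d.support, d i := hφ.degree_eq_sum_deg_support hd
  have : ∏ i ∈ d.support, (c * x i) ^ d i = c ^ n * ∏ i ∈ d.support, x i ^ d i := by
    simp_rw [mul_pow]
    rw [Finset.prod_mul_distrib, Finset.prod_pow_eq_pow_sum, ← hdeg]
  rw [this]
  ring

/-- Dehomogenisation `φ(Y, 1)`. -/
def dehom (φ : MvPolynomial (Fin 2) ℂ) : Polynomial ℂ :=
  MvPolynomial.aeval ![Polynomial.X, 1] φ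

theorem aeval_dehom (φ : MvPolynomial (Fin 2) ℂ) (y : B) :
    Polynomial.aeval y (dehom φ) = MvPolynomial.aeval ![y, 1] φ := by
  unfold dehom
  have h := MvPolynomial.comp_aeval (R := ℂ) (σ := Fin 2)
    (f := ![(Polynomial.X : Polynomial ℂ), 1]) (Polynomial.aeval y : Polynomial ℂ →ₐ[ℂ] B)
  have h2 := congrArg (fun F : MvPolynomial (Fin 2) ℂ →ₐ[ℂ] B => F φ) h
  simp only [AlgHom.comp_apply] at h2
  rw [h2]
  have hf : (fun i => (Polynomial.aeval y) ((![Polynomial.X, 1] : Fin 2 → Polynomial ℂ) i)) =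
      ![y, 1] := by
    funext i
    fin_cases i <;> simp
  rw [hf]

end

section

variable {ι : Type*} [Fintype ι] [DecidableEq ι] {L : Type*} [Field L] [Algebra ℂ L]

theorem aeval_pair_scale {ψ : MvPolynomial (Fin 2) ℂ} {m : ℕ} (hψ : ψ.IsHomogeneous m)
    (Jp D : L) :
    MvPolynomial.aeval ![Jp * D, D] ψ = D ^ m * MvPolynomial.aeval ![Jp, 1] ψ := by
  rw [← aeval_scale hψ D ![Jp, 1]]
  have hf : (![Jp * D, D] : Fin 2 → L) = fun i => D * (![Jp, 1] : Fin 2 → L) i := by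
    funext i
    fin_cases i
    · simp [mul_comm]
    · simp
  rw [hf]

theorem nodal_coeff_dehom (k : ℕ) (Jp D : L) (hD : D ≠ 0) (x : ι → L)
    (ψ : MvPolynomial (Fin 2) ℂ) (n : ℕ) (hn : n ≤ Fintype.card ι)
    (hψ : ψ.IsHomogeneous (k * (Fintype.card ι - n)))
    (h : (Lagrange.nodal Finset.univ (fun α => D ^ k * x α)).coeff n =
      MvPolynomial.aeval ![Jp * D, D] ψ) :
    (Lagrange.nodal Finset.univ x).coeff n = Polynomial.aeval Jp (dehom ψ) := by
  have h1 := h20_nodal_coeff_scale x (D ^ k) n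
  rw [h, aeval_pair_scale hψ, ← aeval_dehom] at h1
  have hpow : D ^ (k * (Fintype.card ι - n)) * (D ^ k) ^ n = (D ^ k) ^ Fintype.card ι := by
    rw [← pow_mul, ← pow_mul, ← pow_add]
    congr 1
    rw [← Nat.mul_add, Nat.sub_add_cancel hn]
  have h2 : (D ^ k) ^ Fintype.card ι * Polynomial.aeval Jp (dehom ψ) =
      (D ^ k) ^ Fintype.card ι * (Lagrange.nodal Finset.univ x).coeff n := by
    rw [← h1, ← hpow]
    ring
  exact (mul_left_cancel₀ (pow_ne_zero _ (pow_ne_zero _ hD)) h2).symm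

theorem lagNum_coeff_dehom (k : ℕ) (Jp D : L) (hD : D ≠ 0) (x y : ι → L)
    (g : MvPolynomial (Fin 2) ℂ) (n : ℕ) (hn : n ≤ Fintype.card ι)
    (hg : g.IsHomogeneous (k * (Fintype.card ι - n)))
    (h : (h20_lagNum (fun α => D ^ k * x α) (fun α => D ^ k * y α)).coeff n =
      MvPolynomial.aeval ![Jp * D, D] g) :
    (h20_lagNum x y).coeff n = Polynomial.aeval Jp (dehom g) := by
  have h1 := h20_lagNum_coeff_scale x y (D ^ k) n
  rw [h, aeval_pair_scale hg, ← aeval_dehom] at h1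
  have hpow : D ^ (k * (Fintype.card ι - n)) * (D ^ k) ^ n = (D ^ k) ^ Fintype.card ι := by
    rw [← pow_mul, ← pow_mul, ← pow_add]
    congr 1
    rw [← Nat.mul_add, Nat.sub_add_cancel hn]
  have h2 : (D ^ k) ^ Fintype.card ι * Polynomial.aeval Jp (dehom g) =
      (D ^ k) ^ Fintype.card ι * (h20_lagNum x y).coeff n := by
    rw [← h1, ← hpow]
    ring
  exact (mul_left_cancel₀ (pow_ne_zero _ (pow_ne_zero _ hD)) h2).symm

end

end H23M

end
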