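import Fermat.Agent.S28.Interface

/-!
# helper23 (S28, WP1): formal identities `j · Δ = E₄³`, `Δ · Δ⁻¹ = 1` over any ring
-/

set_option autoImplicit false

noncomputable section

namespace H23M

open ModularCurve H28S28

variable (A : Type) [CommRing A]

/-- The formal `E₄` as a Laurent series. -/
def e4q : LaurentSeries A :=
  HahnSeries.ofPowerSeries ℤ A (eisenstein4.map (Int.castRingHom A))

theorem deltaq_mul_deltaqInv : deltaq A * deltaqInv A = 1 := by
  unfold deltaq deltaqInv
  rw [mul_mul_mul_comm, HahnSeries.single_mul_single, ← map_mul, ← map_mul,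
    dedekindEtaUnit_mul_inv]
  simp

theorem jqModC_mul_deltaq : jqModC A * deltaq A = e4q A ^ 3 := by
  unfold jqModC deltaq e4q
  rw [mul_mul_mul_comm, HahnSeries.single_mul_single, ← map_mul, ← map_mul, ← map_pow,
    ← map_pow]
  have h : jNum * dedekindEtaUnit = eisenstein4 ^ 3 := by
    unfold jNum
    rw [mul_assoc, mul_comm dedekindEtaUnitInv, dedekindEtaUnit_mul_inv, mul_one]
  rw [h]
  simp

theorem deltaq_ne_zero [Nontrivial A] : deltaq A ≠ 0 := by
  intro h
  have := deltaq_mul_deltaqInv A
  rw [h, zero_mul] at this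
  exact zero_ne_one this

end H23M

end
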