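import Fermat.Agent.S28.ModEq.Subst
import Fermat.Agent.S28.Interface

/-!
# helper23 (S28, WP1): the `q`-expansion ring homomorphism on nice functions, with values in
Laurent series, and its compatibility with `w ↦ N w` and `w ↦ w + x`
-/

set_option autoImplicit false

noncomputable section

namespace H23M

open UpperHalfPlane ModularForm H23 H23.Rel Filter ModularCurve H28S28
open scoped MatrixGroups Manifold Topology Real

/-- The algebra of nice functions. -/
def niceAlg : Subalgebra ℂ (ℍ → ℂ) where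
  carrier := {F | Nice F}
  mul_mem' := fun hF hG => nice_mul hF hG
  add_mem' := fun hF hG => nice_add hF hG
  algebraMap_mem' := fun c => nice_const c

theorem mem_niceAlg {F : ℍ → ℂ} : F ∈ niceAlg ↔ Nice F := Iff.rfl

/-- `q`-expansion as a ring homomorphism. -/
def qHom : niceAlg →+* PowerSeries ℂ where
  toFun F := qExpansion 1 (F : ℍ → ℂ)
  map_one' := qExpansion_one 1
  map_mul' F G := qExpansion_mul_of_nice F.2 G.2
  map_zero' := qExpansion_zero 1
  map_add' F G := qExpansion_add_of_nice F.2 G.2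

/-- `q`-expansion with values in Laurent series. -/
def Lam : niceAlg →+* LaurentSeries ℂ := (HahnSeries.ofPowerSeries ℤ ℂ).comp qHom

theorem Lam_apply (F : niceAlg) :
    Lam F = HahnSeries.ofPowerSeries ℤ ℂ (qExpansion 1 (F : ℍ → ℂ)) := rfl

theorem Lam_coeff_nat (F : niceAlg) (n : ℕ) :
    (Lam F).coeff (n : ℤ) = (qExpansion 1 (F : ℍ → ℂ)).coeff n := by
  rw [Lam_apply, HahnSeries.ofPowerSeries_apply_coeff]

theorem Lam_coeff_neg (F : niceAlg) {k : ℤ} (hk : k < 0) : (Lam F).coeff k = 0 := by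
  rw [Lam_apply]
  exact ofPowerSeries_coeff_of_neg _ hk

theorem Lam_algebraMap (c : ℂ) : Lam (algebraMap ℂ niceAlg c) = HahnSeries.C c := by
  rw [Lam_apply]
  have h : ((algebraMap ℂ niceAlg c : niceAlg) : ℍ → ℂ) = fun _ => c := rfl
  rw [h, qExpansion_const, HahnSeries.ofPowerSeries_C]

theorem Lam_comp_diag (N : ℕ) [NeZero N] (F : niceAlg) :
    Lam ⟨fun w => (F : ℍ → ℂ) (heckeDiagMatrix N • w), nice_comp_diag N F.2⟩ =
      qExpand ℂ N (Lam F) := by
  have hN : (0 : ℤ) < N := by exact_mod_cast Nat.pos_of_ne_zero (NeZero.ne N)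
  ext k
  rcases lt_or_ge k 0 with hk | hk
  · rw [Lam_coeff_neg _ hk]
    by_cases hd : (N : ℤ) ∣ k
    · obtain ⟨m, rfl⟩ := hd
      rw [qExpand_coeff_mul, Lam_coeff_neg]
      by_contra hm
      rw [not_lt] at hm
      have := mul_nonneg hN.le hm
      omega
    · rw [qExpand_coeff_of_not_dvd N _ hd]
  · lift k to ℕ using hk
    rw [Lam_coeff_nat]
    show (qExpansion 1 (fun w => (F : ℍ → ℂ) (heckeDiagMatrix N • w))).coeff k = _
    rw [qExpansion_comp_diag_coeff N F.2]
    split_ifs with hd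
    · obtain ⟨m, rfl⟩ := hd
      rw [Nat.mul_div_cancel_left _ (Nat.pos_of_ne_zero (NeZero.ne N))]
      push_cast
      rw [qExpand_coeff_mul, Lam_coeff_nat]
    · rw [qExpand_coeff_of_not_dvd N _ (by exact_mod_cast hd)]

theorem Lam_comp_T (x : ℝ) (u : ℂˣ) (hu : (u : ℂ) = Complex.exp (2 * π * Complex.I * x))
    (F : niceAlg) :
    Lam ⟨fun w => (F : ℍ → ℂ) (h12_T x • w), nice_comp_T x F.2⟩ = tw u (Lam F) := by
  ext k
  rcases lt_or_ge k 0 with hk | hk
  · rw [Lam_coeff_neg _ hk, tw_coeff, Lam_coeff_neg _ hk, mul_zero]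
  · lift k to ℕ using hk
    rw [Lam_coeff_nat, tw_coeff, Lam_coeff_nat]
    show (qExpansion 1 (fun w => (F : ℍ → ℂ) (h12_T x • w))).coeff k = _
    rw [qExpansion_comp_T_coeff x F.2, ← hu]
    simp

end H23M

end
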