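import Fermat.Agent.S28.ModEq.Polys
import Fermat.Agent.S28.ModEq.Lam
import Fermat.Agent.S28.ModEq.Formal
import Fermat.Agent.S28.ModEq.FormalJ

/-!
# helper23 (S28, WP1): from the analytic identities to identities of Laurent series over `ℂ`
-/

set_option autoImplicit false

noncomputable section

namespace H23M

open UpperHalfPlane ModularForm H23 H23.Rel Filter ModularCurve H28S28
open scoped MatrixGroups Manifold Topology Real

local notation "Δ" => ModularForm.discriminant

variable (p : ℕ) [NeZero p]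

omit [NeZero p] in
theorem amat_none_diag [NeZero p] (w : ℍ) :
    amat p none • (heckeDiagMatrix p • w) = heckeDiagMatrix (p * p) • w := by
  have hp : p ≠ 0 := NeZero.ne p
  have hpp : p * p ≠ 0 := mul_ne_zero hp hp
  apply UpperHalfPlane.ext
  simp only [amat]
  rw [coe_heckeDiagMatrix_smul hp, coe_heckeDiagMatrix_smul hp, coe_heckeDiagMatrix_smul hpp]
  push_cast
  ring

theorem amat_some_diag (b : ZMod p) (w : ℍ) :
    amat p (some b) • (heckeDiagMatrix p • w) = h12_T ((b.val : ℝ) / p) • w := by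
  have hp : p ≠ 0 := NeZero.ne p
  have hp' : (p : ℂ) ≠ 0 := Nat.cast_ne_zero.mpr hp
  apply UpperHalfPlane.ext
  simp only [amat]
  rw [coe_heckeMatrix_smul hp, coe_heckeDiagMatrix_smul hp, h12_T_coe_smul]
  push_cast
  field_simp

theorem nice_comp_pt (α : Option (ZMod p)) {F : ℍ → ℂ} (hF : Nice F) :
    Nice (fun w => F (amat p α • (heckeDiagMatrix p • w))) := by
  cases α with
  | none =>
    simp only [amat_none_diag]
    exact nice_comp_diag (p * p) hF
  | some b =>
    simp only [amat_some_diag]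
    exact nice_comp_T _ hF

/-- `E₄` as a nice function. -/
def E4n : niceAlg := ⟨⇑E₄, nice_E4⟩

/-- `Δ` as a nice function. -/
def Dn : niceAlg := ⟨Δ, nice_discriminant⟩

/-- `w ↦ F(p w)`. -/
def compDiag (F : niceAlg) : niceAlg :=
  ⟨fun w => (F : ℍ → ℂ) (heckeDiagMatrix p • w), nice_comp_diag p F.2⟩

/-- `w ↦ F(α (p w))`. -/
def compPt (α : Option (ZMod p)) (F : niceAlg) : niceAlg :=
  ⟨fun w => (F : ℍ → ℂ) (amat p α • (heckeDiagMatrix p • w)), nice_comp_pt p α F.2⟩

/-- The ring homomorphisms of Laurent series corresponding to `compPt`. -/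
def homα (ζ : ℂˣ) : Option (ZMod p) → (LaurentSeries ℂ →+* LaurentSeries ℂ)
  | none => qExpand ℂ (p * p)
  | some b => tw (ζ ^ b.val)

theorem Lam_compDiag (F : niceAlg) : Lam (compDiag p F) = qExpand ℂ p (Lam F) :=
  Lam_comp_diag p F

theorem Lam_compPt (ζ : ℂˣ) (hζ : (ζ : ℂ) = Complex.exp (2 * π * Complex.I / p))
    (α : Option (ZMod p)) (F : niceAlg) : Lam (compPt p α F) = homα p ζ α (Lam F) := by
  cases α with
  | none =>
    have h : compPt p none F =
        ⟨fun w => (F : ℍ → ℂ) (heckeDiagMatrix (p * p) • w), nice_comp_diag (p * p) F.2⟩ := by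
      apply Subtype.ext
      funext w
      show (F : ℍ → ℂ) (amat p none • (heckeDiagMatrix p • w)) = _
      rw [amat_none_diag]
    rw [h, Lam_comp_diag]
    rfl
  | some b =>
    have h : compPt p (some b) F =
        ⟨fun w => (F : ℍ → ℂ) (h12_T ((b.val : ℝ) / p) • w), nice_comp_T _ F.2⟩ := by
      apply Subtype.ext
      funext w
      show (F : ℍ → ℂ) (amat p (some b) • (heckeDiagMatrix p • w)) = _
      rw [amat_some_diag]
    rw [h, Lam_comp_T _ (ζ ^ b.val)]
    · rfl
    · rw [Units.val_pow_eq_pow_val, hζ, ← Complex.exp_nat_mul]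
      congr 1
      push_cast
      ring

/-! ### The analytic families as nice functions of `w` -/

theorem nice_TT_diag (α : Option (ZMod p)) :
    Nice (fun w : ℍ => TT p α (heckeDiagMatrix p • w)) := by
  have hmem := TT_mem p α
  refine ⟨mdiff_comp_amat p none hmem.1, ?_, bdd_comp_amat p none hmem.2⟩
  have hE := (nice_comp_pt p α nice_E4).2.1
  have hD := (nice_comp_pt p α nice_discriminant).2.1
  have hd := (nice_comp_diag p nice_discriminant).2.1
  have hfun : ((fun w : ℍ => TT p α (heckeDiagMatrix p • w)) ∘ ofComplex) =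
      ((fun w : ℍ => E₄ (amat p α • (heckeDiagMatrix p • w))) ∘ ofComplex) ^ 3 *
        (((fun w : ℍ => Δ (heckeDiagMatrix p • w)) ∘ ofComplex) ^ p /
          ((fun w : ℍ => Δ (amat p α • (heckeDiagMatrix p • w))) ∘ ofComplex)) := by
    funext u
    simp only [Function.comp_apply, Pi.mul_apply, Pi.pow_apply, Pi.div_apply]
    rw [TT_eq]
  rw [hfun]
  have h3 : Function.Periodic
      (((fun w : ℍ => E₄ (amat p α • (heckeDiagMatrix p • w))) ∘ ofComplex) ^ 3) 1 := by
    intro u
    simp only [Pi.pow_apply]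
    rw [hE u]
  have hp : Function.Periodic
      (((fun w : ℍ => Δ (heckeDiagMatrix p • w)) ∘ ofComplex) ^ p) 1 := by
    intro u
    simp only [Pi.pow_apply]
    rw [hd u]
  exact h3.mul (hp.div hD)

/-- `w ↦ (j ∘ α)(p w) Δ(p w)^p`. -/
def aN (α : Option (ZMod p)) : niceAlg :=
  ⟨fun w : ℍ => TT p α (heckeDiagMatrix p • w), nice_TT_diag p α⟩

/-- `w ↦ c_α Δ(α (p w))`. -/
def kN (α : Option (ZMod p)) : niceAlg :=
  algebraMap ℂ niceAlg ((p : ℂ) ^ 12 / dlow p α ^ 12) * compPt p α Dn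

/-- `w ↦ c_α Δ(α (p w)) Δ(p w)^(p-1)`. -/
def kkN (α : Option (ZMod p)) : niceAlg := kN p α * compDiag p Dn ^ (p - 1)

theorem aN_apply (α : Option (ZMod p)) (w : ℍ) :
    (aN p α : ℍ → ℂ) w = TT p α (heckeDiagMatrix p • w) := rfl

theorem kN_apply (α : Option (ZMod p)) (w : ℍ) :
    (kN p α : ℍ → ℂ) w = kf p α (heckeDiagMatrix p • w) := rfl

theorem kkN_apply (α : Option (ZMod p)) (w : ℍ) :
    (kkN p α : ℍ → ℂ) w = KK p α (heckeDiagMatrix p • w) := rfl

theorem aN_mul (α : Option (ZMod p)) :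
    aN p α * compPt p α Dn = compPt p α E4n ^ 3 * compDiag p Dn ^ p := by
  apply Subtype.ext
  funext w
  show TT p α (heckeDiagMatrix p • w) * Δ (amat p α • (heckeDiagMatrix p • w)) =
    E₄ (amat p α • (heckeDiagMatrix p • w)) ^ 3 * Δ (heckeDiagMatrix p • w) ^ p
  rw [TT_eq]
  have := discriminant_ne_zero (amat p α • (heckeDiagMatrix p • w))
  field_simp

/-! ### Evaluation at a point and `Lam` as algebra homomorphisms -/

/-- Evaluation at `w` as an algebra homomorphism on nice functions. -/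
def evw (w : ℍ) : niceAlg →ₐ[ℂ] ℂ :=
  (Pi.evalAlgHom ℂ (fun _ : ℍ => ℂ) w).comp niceAlg.val

omit [NeZero p] in
theorem evw_apply (w : ℍ) (F : niceAlg) : evw w F = (F : ℍ → ℂ) w := rfl

/-- `Lam` as an algebra homomorphism. -/
def LamA : niceAlg →ₐ[ℂ] LaurentSeries ℂ :=
  { Lam with
    commutes' := fun c => by
      show Lam (algebraMap ℂ niceAlg c) = _
      have h1 : algebraMap ℂ (PowerSeries ℂ) c = PowerSeries.C c := by simp
      rw [Lam_algebraMap, HahnSeries.algebraMap_apply', h1, HahnSeries.ofPowerSeries_C] }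

omit [NeZero p] in
theorem LamA_apply (F : niceAlg) : LamA F = Lam F := rfl

section maps

variable {R S : Type*} [CommRing R] [CommRing S] {ι : Type*}

theorem map_nodal' (f : R →+* S) (s : Finset ι) (a : ι → R) :
    (Lagrange.nodal s a).map f = Lagrange.nodal s (fun i => f (a i)) := by
  simp [Lagrange.nodal_eq, Polynomial.map_prod]

theorem map_lagNum' [Fintype ι] [DecidableEq ι] (f : R →+* S) (a b : ι → R) :
    (h20_lagNum a b).map f = h20_lagNum (fun i => f (a i)) (fun i => f (b i)) := by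
  simp [h20_lagNum, Polynomial.map_sum, map_nodal']

end maps

omit [NeZero p] in
/-- An identity of nice functions can be checked pointwise. -/
theorem niceAlg_ext {F G : niceAlg} (h : ∀ w, evw w F = evw w G) : F = G := by
  apply Subtype.ext
  funext w
  exact h w

theorem evw_pair (w : ℍ) :
    (fun i => evw w ((![compDiag p E4n ^ 3, compDiag p Dn] : Fin 2 → niceAlg) i)) =
      pt2 (heckeDiagMatrix p • w) := by
  funext i
  fin_cases i
  · simp only [Fin.zero_eta, Matrix.cons_val_zero, map_pow]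
    rfl
  · rfl

/-- The coefficient identities in the algebra of nice functions. -/
theorem nice_identities [Fact p.Prime] :
    ∃ ψ θ g : ℕ → MvPolynomial (Fin 2) ℂ,
      (∀ n, (ψ n).IsHomogeneous (p * (p + 1 - n))) ∧
      (∀ n, (θ n).IsHomogeneous (p + 1 - n)) ∧
      (∀ n, (g n).IsHomogeneous (p * (p + 1 - n))) ∧
      ∀ n : ℕ,
        (Lagrange.nodal Finset.univ (aN p)).coeff n =
          MvPolynomial.aeval ![compDiag p E4n ^ 3, compDiag p Dn] (ψ n) ∧
        (Lagrange.nodal Finset.univ (kN p)).coeff n =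
          MvPolynomial.aeval ![compDiag p E4n ^ 3, compDiag p Dn] (θ n) ∧
        (h20_lagNum (aN p) (kkN p)).coeff n =
          MvPolynomial.aeval ![compDiag p E4n ^ 3, compDiag p Dn] (g n) := by
  obtain ⟨ψ, θ, g, hψ, hθ, hg, h⟩ := exists_polys p
  refine ⟨ψ, θ, g, hψ, hθ, hg, fun n => ?_⟩
  have key : ∀ (w : ℍ) (φ : MvPolynomial (Fin 2) ℂ),
      evw w (MvPolynomial.aeval ![compDiag p E4n ^ 3, compDiag p Dn] φ) =
        MvPolynomial.eval (pt2 (heckeDiagMatrix p • w)) φ := by
    intro w φ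
    have h1 := MvPolynomial.comp_aeval (R := ℂ) (σ := Fin 2)
      (f := (![compDiag p E4n ^ 3, compDiag p Dn] : Fin 2 → niceAlg)) (evw w)
    have h2 := congrArg (fun F : MvPolynomial (Fin 2) ℂ →ₐ[ℂ] ℂ => F φ) h1
    simp only [AlgHom.comp_apply] at h2
    rw [h2, evw_pair, MvPolynomial.aeval_eq_eval]
  refine ⟨niceAlg_ext fun w => ?_, niceAlg_ext fun w => ?_, niceAlg_ext fun w => ?_⟩
  · rw [key, ← (h (heckeDiagMatrix p • w) n).1]
    have : evw w ((Lagrange.nodal Finset.univ (aN p)).coeff n) =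
        ((Lagrange.nodal Finset.univ (aN p)).map (evw w : niceAlg →+* ℂ)).coeff n := by
      rw [Polynomial.coeff_map]; rfl
    rw [this, map_nodal']
    rfl
  · rw [key, ← (h (heckeDiagMatrix p • w) n).2.1]
    have : evw w ((Lagrange.nodal Finset.univ (kN p)).coeff n) =
        ((Lagrange.nodal Finset.univ (kN p)).map (evw w : niceAlg →+* ℂ)).coeff n := by
      rw [Polynomial.coeff_map]; rfl
    rw [this, map_nodal']
    rfl
  · rw [key, ← (h (heckeDiagMatrix p • w) n).2.2]
    have : evw w ((h20_lagNum (aN p) (kkN p)).coeff n) =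
        ((h20_lagNum (aN p) (kkN p)).map (evw w : niceAlg →+* ℂ)).coeff n := by
      rw [Polynomial.coeff_map]; rfl
    rw [this, map_lagNum']
    rfl

/-! ### Values of `Lam` -/

section bridge

variable (hE4 : UpperHalfPlane.qExpansion 1 (⇑E₄) =
    PowerSeries.map (Int.castRingHom ℂ) eisenstein4)
  (hΔ : UpperHalfPlane.qExpansion 1 Δ =
    PowerSeries.map (Int.castRingHom ℂ) (PowerSeries.X * dedekindEtaUnit))

include hE4 in
omit [NeZero p] in
theorem Lam_E4n : Lam E4n = e4q ℂ := by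
  rw [Lam_apply]
  show HahnSeries.ofPowerSeries ℤ ℂ (qExpansion 1 (⇑E₄)) = _
  rw [hE4]
  rfl

include hΔ in
omit [NeZero p] in
theorem Lam_Dn : Lam Dn = deltaq ℂ := by
  rw [Lam_apply]
  show HahnSeries.ofPowerSeries ℤ ℂ (qExpansion 1 Δ) = _
  rw [hΔ, map_mul, map_mul, PowerSeries.map_X, HahnSeries.ofPowerSeries_X]
  rfl

/-- `Δ(q)` as a series in `s = q^{1/p}`. -/
def Dhat : LaurentSeries ℂ := qExpand ℂ p (deltaq ℂ)

/-- `j(q)` as a series in `s = q^{1/p}`. -/
def Jp : LaurentSeries ℂ := qExpand ℂ p (jqModC ℂ)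

theorem Dhat_ne_zero : Dhat p ≠ 0 := by
  unfold Dhat
  rw [Ne, map_eq_zero_iff _ (qExpand_injective p)]
  exact deltaq_ne_zero ℂ

/-- The formal conjugates of `j`, indexed by `Option (ZMod p)`. -/
def xz (ζ : ℂˣ) (α : Option (ZMod p)) : LaurentSeries ℂ := homα p ζ α (jqModC ℂ)

/-- The formal conjugates of the modular unit, indexed by `Option (ZMod p)`. -/
def yz (ζ : ℂˣ) (α : Option (ZMod p)) : LaurentSeries ℂ :=
  HahnSeries.C ((p : ℂ) ^ 12 / dlow p α ^ 12) * homα p ζ α (deltaq ℂ) *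
    qExpand ℂ p (deltaqInv ℂ)

theorem Dhat_mul_inv : Dhat p * qExpand ℂ p (deltaqInv ℂ) = 1 := by
  unfold Dhat
  rw [← map_mul, deltaq_mul_deltaqInv, map_one]

include hE4 in
theorem Lam_compDiag_E4n_pow : Lam (compDiag p E4n) ^ 3 = Jp p * Dhat p := by
  rw [Lam_compDiag, Lam_E4n hE4, ← map_pow, ← jqModC_mul_deltaq, map_mul]
  rfl

include hΔ in
theorem Lam_compDiag_Dn : Lam (compDiag p Dn) = Dhat p := by
  rw [Lam_compDiag, Lam_Dn hΔ]
  rfl

variable (ζ : ℂˣ) (hζ : (ζ : ℂ) = Complex.exp (2 * π * Complex.I / p))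

omit [NeZero p] in
theorem homα_injective [NeZero p] (α : Option (ZMod p)) : Function.Injective (homα p ζ α) :=
  RingHom.injective _

include hE4 hΔ hζ in
theorem Lam_aN (α : Option (ZMod p)) : Lam (aN p α) = Dhat p ^ p * xz p ζ α := by
  have h := congrArg Lam (aN_mul p α)
  rw [map_mul, map_mul, map_pow, map_pow, Lam_compPt p ζ hζ, Lam_compPt p ζ hζ, Lam_Dn hΔ,
    Lam_E4n hE4, Lam_compDiag_Dn p hΔ, ← map_pow, ← jqModC_mul_deltaq, map_mul] at h
  have hne : homα p ζ α (deltaq ℂ) ≠ 0 := by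
    rw [Ne, map_eq_zero_iff _ (homα_injective p ζ α)]
    exact deltaq_ne_zero ℂ
  apply mul_right_cancel₀ hne
  rw [h]
  unfold xz
  ring

include hΔ hζ in
theorem Lam_kN (α : Option (ZMod p)) : Lam (kN p α) = Dhat p ^ 1 * yz p ζ α := by
  unfold kN yz
  rw [map_mul, Lam_algebraMap, Lam_compPt p ζ hζ, Lam_Dn hΔ, pow_one]
  have h := Dhat_mul_inv p
  calc HahnSeries.C ((p : ℂ) ^ 12 / dlow p α ^ 12) * homα p ζ α (deltaq ℂ)
      = HahnSeries.C ((p : ℂ) ^ 12 / dlow p α ^ 12) * homα p ζ α (deltaq ℂ) *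
          (Dhat p * qExpand ℂ p (deltaqInv ℂ)) := by rw [h, mul_one]
    _ = _ := by ring

include hΔ hζ in
theorem Lam_kkN (α : Option (ZMod p)) : Lam (kkN p α) = Dhat p ^ p * yz p ζ α := by
  unfold kkN
  rw [map_mul, map_pow, Lam_kN p hΔ ζ hζ, Lam_compDiag_Dn p hΔ, pow_one, mul_right_comm,
    ← pow_succ']
  congr 2
  have := NeZero.one_le (n := p)
  omega

include hE4 hΔ hζ in
/-- The coefficient identities for the formal conjugates. -/
theorem formal_identities [Fact p.Prime] :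
    ∃ ψ θ g : ℕ → MvPolynomial (Fin 2) ℂ, ∀ n : ℕ, n ≤ p + 1 →
        (Lagrange.nodal Finset.univ (xz p ζ)).coeff n = Polynomial.aeval (Jp p) (dehom (ψ n)) ∧
        (Lagrange.nodal Finset.univ (yz p ζ)).coeff n = Polynomial.aeval (Jp p) (dehom (θ n)) ∧
        (h20_lagNum (xz p ζ) (yz p ζ)).coeff n = Polynomial.aeval (Jp p) (dehom (g n)) := by
  obtain ⟨ψ, θ, g, hψ, hθ, hg, h⟩ := nice_identities p
  have hcard : Fintype.card (Option (ZMod p)) = p + 1 := by
    rw [Fintype.card_option, ZMod.card]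
  have key : ∀ φ : MvPolynomial (Fin 2) ℂ,
      LamA (MvPolynomial.aeval ![compDiag p E4n ^ 3, compDiag p Dn] φ) =
        MvPolynomial.aeval ![Jp p * Dhat p, Dhat p] φ := by
    intro φ
    have h1 := MvPolynomial.comp_aeval (R := ℂ) (σ := Fin 2)
      (f := (![compDiag p E4n ^ 3, compDiag p Dn] : Fin 2 → niceAlg)) LamA
    have h2 := congrArg (fun F : MvPolynomial (Fin 2) ℂ →ₐ[ℂ] LaurentSeries ℂ => F φ) h1
    simp only [AlgHom.comp_apply] at h2
    rw [h2]
    have hf : (fun i => LamA ((![compDiag p E4n ^ 3, compDiag p Dn] : Fin 2 → niceAlg) i)) =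
        ![Jp p * Dhat p, Dhat p] := by
      funext i
      fin_cases i
      · simp only [Fin.zero_eta, Matrix.cons_val_zero, map_pow, LamA_apply]
        exact Lam_compDiag_E4n_pow p hE4
      · simp only [Fin.mk_one, Matrix.cons_val_one, Matrix.cons_val_zero, LamA_apply]
        exact Lam_compDiag_Dn p hΔ
    rw [hf]
  refine ⟨ψ, θ, g, fun n hn => ⟨?_, ?_, ?_⟩⟩
  · have h1 := congrArg LamA (h n).1
    rw [key] at h1
    have h2 : LamA ((Lagrange.nodal Finset.univ (aN p)).coeff n) =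
        ((Lagrange.nodal Finset.univ (aN p)).map (LamA : niceAlg →+* LaurentSeries ℂ)).coeff n := by
      rw [Polynomial.coeff_map]; rfl
    rw [h2, map_nodal'] at h1
    have h3 : (fun i => (LamA : niceAlg →+* LaurentSeries ℂ) (aN p i)) =
        fun α => Dhat p ^ p * xz p ζ α := by
      funext α
      exact Lam_aN p hE4 hΔ ζ hζ α
    rw [h3] at h1
    exact nodal_coeff_dehom p (Jp p) (Dhat p) (Dhat_ne_zero p) (xz p ζ) (ψ n) n
      (by rw [hcard]; exact hn) (by rw [hcard]; exact hψ n) h1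
  · have h1 := congrArg LamA (h n).2.1
    rw [key] at h1
    have h2 : LamA ((Lagrange.nodal Finset.univ (kN p)).coeff n) =
        ((Lagrange.nodal Finset.univ (kN p)).map (LamA : niceAlg →+* LaurentSeries ℂ)).coeff n := by
      rw [Polynomial.coeff_map]; rfl
    rw [h2, map_nodal'] at h1
    have h3 : (fun i => (LamA : niceAlg →+* LaurentSeries ℂ) (kN p i)) =
        fun α => Dhat p ^ 1 * yz p ζ α := by
      funext α
      exact Lam_kN p hΔ ζ hζ α
    rw [h3] at h1
    exact nodal_coeff_dehom 1 (Jp p) (Dhat p) (Dhat_ne_zero p) (yz p ζ) (θ n) n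
      (by rw [hcard]; exact hn) (by rw [hcard, one_mul]; exact hθ n) h1
  · have h1 := congrArg LamA (h n).2.2
    rw [key] at h1
    have h2 : LamA ((h20_lagNum (aN p) (kkN p)).coeff n) =
        ((h20_lagNum (aN p) (kkN p)).map (LamA : niceAlg →+* LaurentSeries ℂ)).coeff n := by
      rw [Polynomial.coeff_map]; rfl
    rw [h2, map_lagNum'] at h1
    have h3 : (fun i => (LamA : niceAlg →+* LaurentSeries ℂ) (aN p i)) =
        fun α => Dhat p ^ p * xz p ζ α := by
      funext α
      exact Lam_aN p hE4 hΔ ζ hζ α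
    have h4 : (fun i => (LamA : niceAlg →+* LaurentSeries ℂ) (kkN p i)) =
        fun α => Dhat p ^ p * yz p ζ α := by
      funext α
      exact Lam_kkN p hΔ ζ hζ α
    rw [h3, h4] at h1
    exact lagNum_coeff_dehom p (Jp p) (Dhat p) (Dhat_ne_zero p) (xz p ζ) (yz p ζ) (g n) n
      (by rw [hcard]; exact hn) (by rw [hcard]; exact hg n) h1

end bridge

end H23M

end
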