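/-
S28 WP1 (helper21): the formal conjugates `xconj`, `yconj`, the twist `tw`, `deltaq`, `deltaqInv`
and `baseEval` of `S28/Interface.lean` commute with coefficient maps `ModularCurve.coeffMap f`.
Shared by slices (D) `Integral.lean` and (F) `Universal.lean`.
-/
import Mathlib
import Fermat.Agent.S28.Interface

set_option autoImplicit false

open ModularCurve HahnSeries Polynomial H28S28

noncomputable section

namespace H23M

section

variable {A B : Type} [CommRing A] [CommRing B] (f : A →+* B)

theorem h21_units_map_zpow (ζ : Aˣ) (n : ℤ) :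
    f ((ζ ^ n : Aˣ) : A) = (((Units.map (f : A →* B) ζ) ^ n : Bˣ) : B) := by
  rw [← map_zpow]
  rfl

theorem h21_coeffMap_tw (ζ : Aˣ) (x : LaurentSeries A) :
    coeffMap f (tw ζ x) = tw (Units.map (f : A →* B) ζ) (coeffMap f x) := by
  ext n
  rw [coeffMap_coeff, tw_coeff, tw_coeff, coeffMap_coeff, map_mul, h21_units_map_zpow]

theorem h21_map_map_intCast (u : PowerSeries ℤ) :
    PowerSeries.map f (PowerSeries.map (Int.castRingHom A) u) =
      PowerSeries.map (Int.castRingHom B) u := by
  rw [← RingHom.comp_apply (PowerSeries.map f) (PowerSeries.map (Int.castRingHom A)),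
    ← PowerSeries.map_comp, RingHom.ext_int (f.comp (Int.castRingHom A)) (Int.castRingHom B)]

theorem h21_coeffMap_deltaq : coeffMap f (deltaq A) = deltaq B := by
  rw [deltaq, map_mul, coeffMap_single, map_one, coeffMap_ofPowerSeries, h21_map_map_intCast]
  rfl

theorem h21_coeffMap_deltaqInv : coeffMap f (deltaqInv A) = deltaqInv B := by
  rw [deltaqInv, map_mul, coeffMap_single, map_one, coeffMap_ofPowerSeries, h21_map_map_intCast]
  rfl

variable (p : ℕ) [NeZero p]

theorem h21_coeffMap_xconj (ζ : Aˣ) (i : Option (Fin p)) :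
    coeffMap f (xconj A p ζ i) = xconj B p (Units.map (f : A →* B) ζ) i := by
  cases i with
  | none =>
    simp only [xconj]
    rw [coeffMap_qExpand, coeffMap_jqModC]
  | some b =>
    simp only [xconj]
    rw [h21_coeffMap_tw, coeffMap_jqModC, map_pow]

theorem h21_coeffMap_yconj (ζ : Aˣ) (i : Option (Fin p)) :
    coeffMap f (yconj A p ζ i) = yconj B p (Units.map (f : A →* B) ζ) i := by
  cases i with
  | none =>
    simp only [yconj]
    rw [map_mul, map_mul, map_pow, map_natCast, coeffMap_qExpand, coeffMap_qExpand,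
      h21_coeffMap_deltaq, h21_coeffMap_deltaqInv]
  | some b =>
    simp only [yconj]
    rw [map_mul, h21_coeffMap_tw, coeffMap_qExpand, h21_coeffMap_deltaq, h21_coeffMap_deltaqInv,
      map_pow]

theorem h21_coeffMap_comp_baseEval :
    (coeffMap f).comp (baseEval A p) = baseEval B p := by
  apply Polynomial.ringHom_ext
  · intro a
    simp only [eq_intCast, map_intCast]
  · simp only [baseEval, RingHom.comp_apply, Polynomial.coe_eval₂RingHom, Polynomial.eval₂_X]
    rw [coeffMap_qExpand, coeffMap_jqModC]

theorem h21_map_map_baseEval (Φ : Polynomial (Polynomial ℤ)) :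
    (Φ.map (baseEval A p)).map (coeffMap f) = Φ.map (baseEval B p) := by
  rw [Polynomial.map_map, h21_coeffMap_comp_baseEval]

theorem h21_map_prod_xconj (ζ : Aˣ) :
    (∏ i : Option (Fin p), (X - Polynomial.C (xconj A p ζ i))).map (coeffMap f) =
      ∏ i : Option (Fin p), (X - Polynomial.C (xconj B p (Units.map (f : A →* B) ζ) i)) := by
  rw [Polynomial.map_prod]
  refine Finset.prod_congr rfl fun i _ => ?_
  rw [Polynomial.map_sub, Polynomial.map_X, Polynomial.map_C, h21_coeffMap_xconj]

theorem h21_map_prod_yconj (ζ : Aˣ) :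
    (∏ i : Option (Fin p), (X - Polynomial.C (yconj A p ζ i))).map (coeffMap f) =
      ∏ i : Option (Fin p), (X - Polynomial.C (yconj B p (Units.map (f : A →* B) ζ) i)) := by
  rw [Polynomial.map_prod]
  refine Finset.prod_congr rfl fun i _ => ?_
  rw [Polynomial.map_sub, Polynomial.map_X, Polynomial.map_C, h21_coeffMap_yconj]

theorem h21_map_lag (ζ : Aˣ) :
    (∑ i : Option (Fin p), Polynomial.C (yconj A p ζ i) *
        ∏ i' ∈ Finset.univ.erase i, (X - Polynomial.C (xconj A p ζ i'))).map (coeffMap f) =
      ∑ i : Option (Fin p), Polynomial.C (yconj B p (Units.map (f : A →* B) ζ) i) *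
        ∏ i' ∈ Finset.univ.erase i,
          (X - Polynomial.C (xconj B p (Units.map (f : A →* B) ζ) i')) := by
  rw [Polynomial.map_sum]
  refine Finset.sum_congr rfl fun i _ => ?_
  rw [Polynomial.map_mul, Polynomial.map_C, h21_coeffMap_yconj, Polynomial.map_prod]
  congr 1
  refine Finset.prod_congr rfl fun i' _ => ?_
  rw [Polynomial.map_sub, Polynomial.map_X, Polynomial.map_C, h21_coeffMap_xconj]

theorem h21_coeffMap_injective (hf : Function.Injective f) :
    Function.Injective (coeffMap f) := by
  intro x y h
  ext k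
  have := congrArg (fun z => z.coeff k) h
  simp only [coeffMap_coeff] at this
  exact hf this

end

end H23M
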