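import Fermat.Agent.S28.Interface

/-!
# S28, WP1 slice (F) (helper22): the modular equation identities, from `ℂ` to every ring

The three identities of `H28S28.HasModEq` are natural in the pair `(A, ζ)`.  Since
`ℤ[ζ_p] = AdjoinRoot (cyclotomic p ℤ)` embeds into `ℂ` and maps to every `(A, ζ)`, the identities
over `ℂ` (for one primitive `p`-th root of unity) imply them for every commutative ring.

Main statement: `H23M.modEq_universal`.
-/

set_option autoImplicit false
set_option linter.unusedSectionVars false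
set_option linter.style.haveILetI false

open ModularCurve HahnSeries Polynomial H28S28

noncomputable section

namespace H23M

section Naturality

variable {A B : Type} [CommRing A] [CommRing B] (f : A →+* B)

theorem h22u_coeffMap_injective (hf : Function.Injective f) :
    Function.Injective (coeffMap f) := by
  intro x y hxy
  ext k
  apply hf
  have := congrArg (fun z : LaurentSeries B => z.coeff k) hxy
  simpa using this

theorem h22u_units_map_zpow (ζ : Aˣ) (n : ℤ) :
    f ((ζ ^ n : Aˣ) : A) = (((Units.map (f : A →* B) ζ) ^ n : Bˣ) : B) := by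
  rw [← map_zpow]
  rfl

theorem h22u_coeffMap_tw (ζ : Aˣ) (x : LaurentSeries A) :
    coeffMap f (tw ζ x) = tw (Units.map (f : A →* B) ζ) (coeffMap f x) := by
  ext n
  rw [coeffMap_coeff, tw_coeff, tw_coeff, coeffMap_coeff, map_mul, h22u_units_map_zpow]

theorem h22u_map_map_intCast (u : PowerSeries ℤ) :
    (u.map (Int.castRingHom A)).map f = u.map (Int.castRingHom B) := by
  ext n
  simp

theorem h22u_coeffMap_deltaq : coeffMap f (deltaq A) = deltaq B := by
  rw [deltaq, deltaq, map_mul, coeffMap_single, map_one, coeffMap_ofPowerSeries,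
    h22u_map_map_intCast]

theorem h22u_coeffMap_deltaqInv : coeffMap f (deltaqInv A) = deltaqInv B := by
  rw [deltaqInv, deltaqInv, map_mul, coeffMap_single, map_one, coeffMap_ofPowerSeries,
    h22u_map_map_intCast]

variable (p : ℕ) [NeZero p]

theorem h22u_coeffMap_xconj (ζ : Aˣ) (i : Option (Fin p)) :
    coeffMap f (xconj A p ζ i) = xconj B p (Units.map (f : A →* B) ζ) i := by
  cases i with
  | none =>
    show coeffMap f (qExpand A (p * p) (jqModC A)) = qExpand B (p * p) (jqModC B)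
    rw [coeffMap_qExpand, coeffMap_jqModC]
  | some b =>
    show coeffMap f (tw (ζ ^ (b : ℕ)) (jqModC A)) =
      tw ((Units.map (f : A →* B) ζ) ^ (b : ℕ)) (jqModC B)
    rw [h22u_coeffMap_tw, coeffMap_jqModC, map_pow]

theorem h22u_coeffMap_yconj (ζ : Aˣ) (i : Option (Fin p)) :
    coeffMap f (yconj A p ζ i) = yconj B p (Units.map (f : A →* B) ζ) i := by
  cases i with
  | none =>
    show coeffMap f ((p : LaurentSeries A) ^ 12 * qExpand A (p * p) (deltaq A) *
        qExpand A p (deltaqInv A)) =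
      (p : LaurentSeries B) ^ 12 * qExpand B (p * p) (deltaq B) * qExpand B p (deltaqInv B)
    rw [map_mul, map_mul, map_pow, map_natCast, coeffMap_qExpand, coeffMap_qExpand,
      h22u_coeffMap_deltaq, h22u_coeffMap_deltaqInv]
  | some b =>
    show coeffMap f (tw (ζ ^ (b : ℕ)) (deltaq A) * qExpand A p (deltaqInv A)) =
      tw ((Units.map (f : A →* B) ζ) ^ (b : ℕ)) (deltaq B) * qExpand B p (deltaqInv B)
    rw [map_mul, h22u_coeffMap_tw, coeffMap_qExpand, h22u_coeffMap_deltaq,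
      h22u_coeffMap_deltaqInv, map_pow]

theorem h22u_coeffMap_comp_baseEval :
    (coeffMap f).comp (baseEval A p) = baseEval B p := by
  apply Polynomial.ringHom_ext
  · intro a
    simp [baseEval]
  · simp only [baseEval, RingHom.comp_apply, Polynomial.coe_eval₂RingHom, Polynomial.eval₂_X]
    rw [coeffMap_qExpand, coeffMap_jqModC]

/-- The three identities of `HasModEq` for the pair `(A, ζ)`. -/
def h22u_Ident (Φ T G : Polynomial (Polynomial ℤ)) (A : Type) [CommRing A] (ζ : Aˣ) : Prop :=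
  Φ.map (baseEval A p) = ∏ i : Option (Fin p), (X - Polynomial.C (xconj A p ζ i)) ∧
  T.map (baseEval A p) = ∏ i : Option (Fin p), (X - Polynomial.C (yconj A p ζ i)) ∧
  G.map (baseEval A p) = ∑ i : Option (Fin p),
    Polynomial.C (yconj A p ζ i) * ∏ i' ∈ Finset.univ.erase i, (X - Polynomial.C (xconj A p ζ i'))

theorem h22u_map_lhs (Φ : Polynomial (Polynomial ℤ)) :
    (Φ.map (baseEval A p)).map (coeffMap f) = Φ.map (baseEval B p) := by
  rw [Polynomial.map_map, h22u_coeffMap_comp_baseEval]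

theorem h22u_map_prod_x (ζ : Aˣ) (s : Finset (Option (Fin p))) :
    (∏ i ∈ s, (X - Polynomial.C (xconj A p ζ i))).map (coeffMap f) =
      ∏ i ∈ s, (X - Polynomial.C (xconj B p (Units.map (f : A →* B) ζ) i)) := by
  rw [Polynomial.map_prod]
  refine Finset.prod_congr rfl fun i _ => ?_
  rw [Polynomial.map_sub, Polynomial.map_X, Polynomial.map_C, h22u_coeffMap_xconj]

theorem h22u_map_prod_y (ζ : Aˣ) (s : Finset (Option (Fin p))) :
    (∏ i ∈ s, (X - Polynomial.C (yconj A p ζ i))).map (coeffMap f) =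
      ∏ i ∈ s, (X - Polynomial.C (yconj B p (Units.map (f : A →* B) ζ) i)) := by
  rw [Polynomial.map_prod]
  refine Finset.prod_congr rfl fun i _ => ?_
  rw [Polynomial.map_sub, Polynomial.map_X, Polynomial.map_C, h22u_coeffMap_yconj]

theorem h22u_map_lag (ζ : Aˣ) :
    (∑ i : Option (Fin p), Polynomial.C (yconj A p ζ i) *
        ∏ i' ∈ Finset.univ.erase i, (X - Polynomial.C (xconj A p ζ i'))).map (coeffMap f) =
      ∑ i : Option (Fin p), Polynomial.C (yconj B p (Units.map (f : A →* B) ζ) i) *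
        ∏ i' ∈ Finset.univ.erase i,
          (X - Polynomial.C (xconj B p (Units.map (f : A →* B) ζ) i')) := by
  rw [Polynomial.map_sum]
  refine Finset.sum_congr rfl fun i _ => ?_
  rw [Polynomial.map_mul, Polynomial.map_C, h22u_coeffMap_yconj, h22u_map_prod_x]

/-- The identities are preserved by ring homomorphisms. -/
theorem h22u_Ident_map {Φ T G : Polynomial (Polynomial ℤ)} {ζ : Aˣ}
    (h : h22u_Ident p Φ T G A ζ) : h22u_Ident p Φ T G B (Units.map (f : A →* B) ζ) := by
  obtain ⟨h1, h2, h3⟩ := h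
  refine ⟨?_, ?_, ?_⟩
  · rw [← h22u_map_lhs f p Φ, h1, h22u_map_prod_x]
  · rw [← h22u_map_lhs f p T, h2, h22u_map_prod_y]
  · rw [← h22u_map_lhs f p G, h3, h22u_map_lag]

/-- The identities are reflected by injective ring homomorphisms. -/
theorem h22u_Ident_of_map (hf : Function.Injective f) {Φ T G : Polynomial (Polynomial ℤ)}
    {ζ : Aˣ} (h : h22u_Ident p Φ T G B (Units.map (f : A →* B) ζ)) :
    h22u_Ident p Φ T G A ζ := by
  obtain ⟨h1, h2, h3⟩ := h
  have hinj := Polynomial.map_injective (coeffMap f) (h22u_coeffMap_injective f hf)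
  refine ⟨hinj ?_, hinj ?_, hinj ?_⟩
  · rw [h22u_map_lhs f p Φ, h1, h22u_map_prod_x]
  · rw [h22u_map_lhs f p T, h2, h22u_map_prod_y]
  · rw [h22u_map_lhs f p G, h3, h22u_map_lag]

end Naturality

section Cyclotomic

variable (p : ℕ) [Fact p.Prime]

/-- A root of the `p`-th cyclotomic polynomial satisfies `a ^ p = 1`. -/
theorem h22u_pow_eq_one {A : Type} [CommRing A] {a : A}
    (ha : (Polynomial.cyclotomic p A).eval a = 0) : a ^ p = 1 := by
  obtain ⟨c, hc⟩ := Polynomial.cyclotomic.dvd_X_pow_sub_one p A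
  have h := congrArg (Polynomial.eval a) hc
  rw [Polynomial.eval_mul, ha, zero_mul, Polynomial.eval_sub, Polynomial.eval_pow,
    Polynomial.eval_X, Polynomial.eval_one] at h
  exact sub_eq_zero.1 h

/-- The universal ring `ℤ[ζ_p]`. -/
abbrev h22u_R : Type := AdjoinRoot (Polynomial.cyclotomic p ℤ)

theorem h22u_root_isRoot :
    (Polynomial.cyclotomic p (h22u_R p)).eval (AdjoinRoot.root (Polynomial.cyclotomic p ℤ)) = 0 := by
  have h := AdjoinRoot.eval₂_root (Polynomial.cyclotomic p ℤ)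
  rw [← Polynomial.map_cyclotomic p (AdjoinRoot.of (Polynomial.cyclotomic p ℤ)),
    Polynomial.eval_map]
  exact h

/-- The universal root of unity as a unit. -/
def h22u_zeta : (h22u_R p)ˣ :=
  Units.ofPowEqOne (AdjoinRoot.root (Polynomial.cyclotomic p ℤ)) p
    (h22u_pow_eq_one p (h22u_root_isRoot p)) (Fact.out : p.Prime).ne_zero

theorem h22u_zeta_val : ((h22u_zeta p : (h22u_R p)ˣ) : h22u_R p) =
    AdjoinRoot.root (Polynomial.cyclotomic p ℤ) := rfl

theorem h22u_eval₂_eq_zero {A : Type} [CommRing A] {a : A}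
    (ha : (Polynomial.cyclotomic p A).eval a = 0) :
    (Polynomial.cyclotomic p ℤ).eval₂ (Int.castRingHom A) a = 0 := by
  rw [← Polynomial.eval_map, Polynomial.map_cyclotomic]
  exact ha

/-- The specialisation `ℤ[ζ_p] → A`, `ζ_p ↦ ζ`. -/
def h22u_spec {A : Type} [CommRing A] (ζ : Aˣ)
    (hζ : (Polynomial.cyclotomic p A).eval (ζ : A) = 0) : h22u_R p →+* A :=
  AdjoinRoot.lift (Int.castRingHom A) (ζ : A) (h22u_eval₂_eq_zero p hζ)

theorem h22u_spec_zeta {A : Type} [CommRing A] (ζ : Aˣ)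
    (hζ : (Polynomial.cyclotomic p A).eval (ζ : A) = 0) :
    Units.map (h22u_spec p ζ hζ : h22u_R p →* A) (h22u_zeta p) = ζ := by
  apply Units.ext
  show h22u_spec p ζ hζ (AdjoinRoot.root (Polynomial.cyclotomic p ℤ)) = (ζ : A)
  exact AdjoinRoot.lift_root _

theorem h22u_spec_injective (ζ₀ : ℂˣ)
    (hζ₀ : (Polynomial.cyclotomic p ℂ).eval (ζ₀ : ℂ) = 0) :
    Function.Injective (h22u_spec p ζ₀ hζ₀) := by
  have hp : p.Prime := Fact.out
  have hprim : IsPrimitiveRoot (ζ₀ : ℂ) p := by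
    haveI : NeZero ((p : ℕ) : ℂ) := ⟨by exact_mod_cast hp.ne_zero⟩
    exact (Polynomial.isRoot_cyclotomic_iff).1 hζ₀
  have hmin : Polynomial.cyclotomic p ℤ = minpoly ℤ (ζ₀ : ℂ) :=
    Polynomial.cyclotomic_eq_minpoly hprim hp.pos
  have hint : IsIntegral ℤ (ζ₀ : ℂ) := hprim.isIntegral hp.pos
  rw [injective_iff_map_eq_zero]
  intro x hx
  obtain ⟨g, rfl⟩ := AdjoinRoot.mk_surjective x
  rw [AdjoinRoot.mk_eq_zero, hmin]
  apply minpoly.isIntegrallyClosed_dvd hint
  have : h22u_spec p ζ₀ hζ₀ (AdjoinRoot.mk (Polynomial.cyclotomic p ℤ) g) =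
      g.eval₂ (Int.castRingHom ℂ) (ζ₀ : ℂ) := AdjoinRoot.lift_mk _ g
  rw [this] at hx
  rw [Polynomial.aeval_def]
  exact hx

end Cyclotomic

/-- **Slice (F).** If the three identities of `HasModEq` hold over `ℂ` for one root `ζ₀` of the
`p`-th cyclotomic polynomial, they hold over every commutative ring `A` and every unit root `ζ`
of the `p`-th cyclotomic polynomial. -/
theorem modEq_universal (p : ℕ) [Fact p.Prime] [NeZero p] (Φ T G : Polynomial (Polynomial ℤ))
    (ζ₀ : ℂˣ) (hζ₀ : (Polynomial.cyclotomic p ℂ).eval (ζ₀ : ℂ) = 0)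
    (h : Φ.map (baseEval ℂ p) = ∏ i : Option (Fin p), (X - Polynomial.C (xconj ℂ p ζ₀ i)) ∧
      T.map (baseEval ℂ p) = ∏ i : Option (Fin p), (X - Polynomial.C (yconj ℂ p ζ₀ i)) ∧
      G.map (baseEval ℂ p) = ∑ i : Option (Fin p),
        Polynomial.C (yconj ℂ p ζ₀ i) *
          ∏ i' ∈ Finset.univ.erase i, (X - Polynomial.C (xconj ℂ p ζ₀ i'))) :
    ∀ (A : Type) [CommRing A] (ζ : Aˣ), (Polynomial.cyclotomic p A).eval (ζ : A) = 0 →
      Φ.map (baseEval A p) = ∏ i : Option (Fin p), (X - Polynomial.C (xconj A p ζ i)) ∧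
      T.map (baseEval A p) = ∏ i : Option (Fin p), (X - Polynomial.C (yconj A p ζ i)) ∧
      G.map (baseEval A p) = ∑ i : Option (Fin p),
        Polynomial.C (yconj A p ζ i) *
          ∏ i' ∈ Finset.univ.erase i, (X - Polynomial.C (xconj A p ζ i')) := by
  intro A _ ζ hζ
  have h0 : h22u_Ident p Φ T G ℂ
      (Units.map (h22u_spec p ζ₀ hζ₀ : h22u_R p →* ℂ) (h22u_zeta p)) := by
    rw [h22u_spec_zeta]
    exact h
  have h1 : h22u_Ident p Φ T G (h22u_R p) (h22u_zeta p) :=
    h22u_Ident_of_map (h22u_spec p ζ₀ hζ₀) p (h22u_spec_injective p ζ₀ hζ₀) h0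
  have h2 := h22u_Ident_map (h22u_spec p ζ hζ) p h1
  rw [h22u_spec_zeta] at h2
  exact h2

/-- Packaged form: `HasModEq p` from the data over `ℂ`. -/
theorem hasModEq_of_complex (p : ℕ) [Fact p.Prime] [NeZero p] (Φ T G : Polynomial (Polynomial ℤ))
    (hΦ : Φ.Monic) (hΦd : Φ.natDegree = p + 1) (hT : T.Monic) (hTd : T.natDegree = p + 1)
    (hT0 : T.coeff 0 = Polynomial.C ((p : ℤ) ^ 12) ∨ T.coeff 0 = Polynomial.C (-(p : ℤ) ^ 12))
    (ζ₀ : ℂˣ) (hζ₀ : (Polynomial.cyclotomic p ℂ).eval (ζ₀ : ℂ) = 0)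
    (h : Φ.map (baseEval ℂ p) = ∏ i : Option (Fin p), (X - Polynomial.C (xconj ℂ p ζ₀ i)) ∧
      T.map (baseEval ℂ p) = ∏ i : Option (Fin p), (X - Polynomial.C (yconj ℂ p ζ₀ i)) ∧
      G.map (baseEval ℂ p) = ∑ i : Option (Fin p),
        Polynomial.C (yconj ℂ p ζ₀ i) *
          ∏ i' ∈ Finset.univ.erase i, (X - Polynomial.C (xconj ℂ p ζ₀ i'))) :
    HasModEq p :=
  ⟨Φ, T, G, hΦ, hΦd, hT, hTd, hT0, modEq_universal p Φ T G ζ₀ hζ₀ h⟩

end H23M
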