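import Fermat.Agent.S28.Interface

/-!
# helper23 (S28, WP1): evaluation `ℂ[Y] → ℂ((s))`, `Y ↦ j(s^p)`
-/

set_option autoImplicit false

noncomputable section

namespace H23M

open ModularCurve H28S28

/-- Evaluation `ℂ[Y] → ℂ((s))`, `Y ↦ j(q) = j(s^p)`. -/
def evC (p : ℕ) [NeZero p] : Polynomial ℂ →+* LaurentSeries ℂ :=
  Polynomial.eval₂RingHom (HahnSeries.C : ℂ →+* LaurentSeries ℂ) (qExpand ℂ p (jqModC ℂ))

theorem evC_comp_map (p : ℕ) [NeZero p] :
    (evC p).comp (Polynomial.mapRingHom (Int.castRingHom ℂ)) = baseEval ℂ p := by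
  apply Polynomial.ringHom_ext
  · intro a
    simp [evC, baseEval]
  · simp [evC, baseEval]

end H23M

end
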