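import Fermat.Agent.S28.ModEq.Analytic
import Fermat.Agent.S28.ModEq.EvC

/-!
# helper23 (S28, WP1): the three polynomials over `ℂ[Y][X]` and their formal identities
-/

set_option autoImplicit false

noncomputable section

namespace H23M

open UpperHalfPlane ModularForm H23 H23.Rel Filter ModularCurve H28S28 Polynomial
open scoped MatrixGroups Manifold Topology Real

local notation "Δ" => ModularForm.discriminant

variable (p : ℕ) [NeZero p]

/-- The bijection between the two index sets. -/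
def idxEquiv : Option (Fin p) ≃ Option (ZMod p) :=
  Equiv.optionCongr
    { toFun := fun b => ((b : ℕ) : ZMod p)
      invFun := fun c => ⟨c.val, ZMod.val_lt c⟩
      left_inv := fun b => by
        apply Fin.ext
        exact ZMod.val_natCast_of_lt b.2
      right_inv := fun c => by
        simp }

theorem idxEquiv_none : idxEquiv p none = none := rfl

theorem idxEquiv_some_val (b : Fin p) :
    ∃ c : ZMod p, idxEquiv p (some b) = some c ∧ c.val = (b : ℕ) :=
  ⟨((b : ℕ) : ZMod p), rfl, ZMod.val_natCast_of_lt b.2⟩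

theorem xz_idx (ζ : ℂˣ) (i : Option (Fin p)) : xz p ζ (idxEquiv p i) = xconj ℂ p ζ i := by
  cases i with
  | none => rfl
  | some b =>
    obtain ⟨c, hc, hv⟩ := idxEquiv_some_val p b
    rw [hc]
    show tw (ζ ^ c.val) (jqModC ℂ) = tw (ζ ^ (b : ℕ)) (jqModC ℂ)
    rw [hv]

theorem yz_idx (ζ : ℂˣ) (i : Option (Fin p)) : yz p ζ (idxEquiv p i) = yconj ℂ p ζ i := by
  have hp : (p : ℂ) ≠ 0 := Nat.cast_ne_zero.mpr (NeZero.ne p)
  cases i with
  | none =>
    show HahnSeries.C ((p : ℂ) ^ 12 / (1 : ℂ) ^ 12) * qExpand ℂ (p * p) (deltaq ℂ) *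
      qExpand ℂ p (deltaqInv ℂ) = (p : LaurentSeries ℂ) ^ 12 * qExpand ℂ (p * p) (deltaq ℂ) *
      qExpand ℂ p (deltaqInv ℂ)
    rw [one_pow, div_one, map_pow, map_natCast]
  | some b =>
    obtain ⟨c, hc, hv⟩ := idxEquiv_some_val p b
    rw [hc]
    show HahnSeries.C ((p : ℂ) ^ 12 / (p : ℂ) ^ 12) * tw (ζ ^ c.val) (deltaq ℂ) *
      qExpand ℂ p (deltaqInv ℂ) = tw (ζ ^ (b : ℕ)) (deltaq ℂ) * qExpand ℂ p (deltaqInv ℂ)
    rw [hv, div_self (pow_ne_zero _ hp), map_one, one_mul]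

section reindex

variable {R : Type*} [CommRing R] {ι κ : Type*} [Fintype ι] [Fintype κ]

theorem nodal_univ_reindex (e : ι ≃ κ) (a : κ → R) :
    Lagrange.nodal Finset.univ (fun i => a (e i)) = Lagrange.nodal Finset.univ a := by
  rw [Lagrange.nodal_eq, Lagrange.nodal_eq]
  exact Fintype.prod_equiv e _ _ fun _ => rfl

theorem lagNum_reindex [DecidableEq ι] [DecidableEq κ] (e : ι ≃ κ) (a b : κ → R) :
    h20_lagNum (fun i => a (e i)) (fun i => b (e i)) = h20_lagNum a b := by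
  unfold h20_lagNum
  refine Fintype.sum_equiv e _ _ fun i => ?_
  congr 1
  rw [Lagrange.nodal_eq, Lagrange.nodal_eq]
  refine Finset.prod_equiv e ?_ fun _ _ => rfl
  intro j
  simp

end reindex

/-- The polynomial with prescribed coefficients up to degree `p + 1`. -/
def mkPoly (c : ℕ → Polynomial ℂ) : Polynomial (Polynomial ℂ) :=
  ∑ n ∈ Finset.range (p + 2), Polynomial.monomial n (c n)

omit [NeZero p] in
theorem mkPoly_coeff (c : ℕ → Polynomial ℂ) (n : ℕ) :
    (mkPoly p c).coeff n = if n ≤ p + 1 then c n else 0 := by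
  unfold mkPoly
  rw [Polynomial.finsetSum_coeff]
  simp only [Polynomial.coeff_monomial]
  rw [Finset.sum_ite_eq' (Finset.range (p + 2)) n]
  simp only [Finset.mem_range]
  congr 1
  exact propext (by omega)

theorem evC_eq_aeval (c : Polynomial ℂ) : evC p c = Polynomial.aeval (Jp p) c := by
  have h : (algebraMap ℂ (LaurentSeries ℂ)) = (HahnSeries.C : ℂ →+* LaurentSeries ℂ) := by
    ext c : 1
    have h1 : algebraMap ℂ (PowerSeries ℂ) c = PowerSeries.C c := by simp
    rw [HahnSeries.algebraMap_apply', h1, HahnSeries.ofPowerSeries_C]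
  rw [Polynomial.aeval_def, h]
  rfl

theorem map_mkPoly_eq (c : ℕ → Polynomial ℂ) (P : Polynomial (LaurentSeries ℂ))
    (hdeg : P.natDegree ≤ p + 1)
    (h : ∀ n, n ≤ p + 1 → P.coeff n = Polynomial.aeval (Jp p) (c n)) :
    (mkPoly p c).map (evC p) = P := by
  ext n : 1
  rw [Polynomial.coeff_map, mkPoly_coeff]
  split_ifs with hn
  · rw [evC_eq_aeval, h n hn]
  · rw [map_zero, Polynomial.coeff_eq_zero_of_natDegree_lt (by omega)]

/-- **The modular equations over `ℂ`** (given the bridge between analytic and formal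
`q`-expansions of `E₄` and `Δ`). -/
theorem exists_complex_polys [Fact p.Prime]
    (hE4 : UpperHalfPlane.qExpansion 1 (⇑E₄) = PowerSeries.map (Int.castRingHom ℂ) eisenstein4)
    (hΔ : UpperHalfPlane.qExpansion 1 Δ =
      PowerSeries.map (Int.castRingHom ℂ) (PowerSeries.X * dedekindEtaUnit)) :
    ∃ ζ₀ : ℂˣ, (Polynomial.cyclotomic p ℂ).eval (ζ₀ : ℂ) = 0 ∧
      ∃ Φc Tc Gc : Polynomial (Polynomial ℂ),
        Φc.map (evC p) = ∏ i : Option (Fin p), (X - C (xconj ℂ p ζ₀ i)) ∧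
        Tc.map (evC p) = ∏ i : Option (Fin p), (X - C (yconj ℂ p ζ₀ i)) ∧
        Gc.map (evC p) = ∑ i : Option (Fin p), C (yconj ℂ p ζ₀ i) *
          ∏ i' ∈ Finset.univ.erase i, (X - C (xconj ℂ p ζ₀ i')) := by
  have hp0 : p ≠ 0 := NeZero.ne p
  set ζ₀ : ℂˣ := Units.mk0 (Complex.exp (2 * π * Complex.I / p)) (Complex.exp_ne_zero _)
    with hζ₀
  have hζ : (ζ₀ : ℂ) = Complex.exp (2 * π * Complex.I / p) := rfl
  have hprim : IsPrimitiveRoot (ζ₀ : ℂ) p := Complex.isPrimitiveRoot_exp p hp0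
  have hroot : (Polynomial.cyclotomic p ℂ).eval (ζ₀ : ℂ) = 0 :=
    hprim.isRoot_cyclotomic (Nat.pos_of_ne_zero hp0)
  obtain ⟨ψ, θ, g, h⟩ := formal_identities p hE4 hΔ ζ₀ hζ
  have hcard : Fintype.card (Option (ZMod p)) = p + 1 := by
    rw [Fintype.card_option, ZMod.card]
  have hx : (∏ i : Option (Fin p), (X - C (xconj ℂ p ζ₀ i))) =
      Lagrange.nodal Finset.univ (xz p ζ₀) := by
    rw [← nodal_univ_reindex (idxEquiv p) (xz p ζ₀), Lagrange.nodal_eq]
    exact Finset.prod_congr rfl fun i _ => by rw [xz_idx]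
  have hy : (∏ i : Option (Fin p), (X - C (yconj ℂ p ζ₀ i))) =
      Lagrange.nodal Finset.univ (yz p ζ₀) := by
    rw [← nodal_univ_reindex (idxEquiv p) (yz p ζ₀), Lagrange.nodal_eq]
    exact Finset.prod_congr rfl fun i _ => by rw [yz_idx]
  have hl : (∑ i : Option (Fin p), C (yconj ℂ p ζ₀ i) *
      ∏ i' ∈ Finset.univ.erase i, (X - C (xconj ℂ p ζ₀ i'))) =
      h20_lagNum (xz p ζ₀) (yz p ζ₀) := by
    rw [← lagNum_reindex (idxEquiv p) (xz p ζ₀) (yz p ζ₀)]
    unfold h20_lagNum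
    refine Finset.sum_congr rfl fun i _ => ?_
    simp only [yz_idx, xz_idx, Lagrange.nodal_eq]
  refine ⟨ζ₀, hroot, mkPoly p (fun n => dehom (ψ n)), mkPoly p (fun n => dehom (θ n)),
    mkPoly p (fun n => dehom (g n)), ?_, ?_, ?_⟩
  · rw [hx]
    refine map_mkPoly_eq p _ _ ?_ fun n hn => (h n hn).1
    rw [Lagrange.natDegree_nodal, Finset.card_univ, hcard]
  · rw [hy]
    refine map_mkPoly_eq p _ _ ?_ fun n hn => (h n hn).2.1
    rw [Lagrange.natDegree_nodal, Finset.card_univ, hcard]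
  · rw [hl]
    refine map_mkPoly_eq p _ _ ?_ fun n hn => (h n hn).2.2
    have := h20_natDegree_lagNum_lt (xz p ζ₀) (yz p ζ₀)
    rw [hcard] at this
    omega

end H23M

end
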