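import Fermat.Agent.S28.ModEq.Cosets
import Fermat.Agent.H23.RevPrelim
import Fermat.Agent.H23.ForwardAlg
import Fermat.Agent.H23.ForwardCoeff

/-!
# helper23 (S28, WP1): the conjugates `j ∘ α`, `Δ ∘ α` and their symmetric functions

For a prime `p` and `α` ranging over the `p + 1` matrices `amat p α`, the families
`TT α = (j ∘ α) · Δ ^ p` and `KK α = c_α (Δ ∘ α) · Δ ^ (p - 1)` are holomorphic, bounded at `i∞`
and permuted by the weight `12 p` slash action of `SL(2,ℤ)`.
-/

set_option autoImplicit false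

noncomputable section

namespace H23M

open UpperHalfPlane ModularForm H23 Matrix.SpecialLinearGroup Filter Asymptotics
open scoped MatrixGroups Manifold Topology

local notation "Δ" => ModularForm.discriminant

/-- The `j`-function. -/
def jf (z : ℍ) : ℂ := E₄ z ^ 3 / Δ z

theorem jf_smul (γ : SL(2, ℤ)) (z : ℍ) : jf (γ • z) = jf z := by
  unfold jf
  rw [E4_smul, disc_smul]
  have hd : denom γ z ≠ 0 := denom_ne_zero γ z
  have hΔ := discriminant_ne_zero z
  field_simp

/-- The lower right entry of `amat p α`. -/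
def dlow (p : ℕ) : Option (ZMod p) → ℂ
  | none => 1
  | some _ => p

theorem dlow_ne_zero (p : ℕ) [NeZero p] (α : Option (ZMod p)) : dlow p α ≠ 0 := by
  cases α with
  | none => exact one_ne_zero
  | some b => exact Nat.cast_ne_zero.mpr (NeZero.ne p)

theorem denom_amat (p : ℕ) [NeZero p] (α : Option (ZMod p)) (z : ℍ) :
    denom (amat p α) z = dlow p α := by
  cases α with
  | none => exact denom_heckeDiagMatrix (NeZero.ne p) z
  | some b => exact denom_heckeMatrix (NeZero.ne p) _ z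

theorem det_amat_pos (p : ℕ) (α : Option (ZMod p)) : 0 < ((amat p α).det : ℝ) := by
  cases α with
  | none => exact det_heckeDiagMatrix_pos p
  | some b => exact det_heckeMatrix_pos p _

theorem amat_one_zero (p : ℕ) [NeZero p] (α : Option (ZMod p)) : (amat p α) 1 0 = 0 := by
  cases α with
  | none => simp [amat, val_heckeDiagMatrix (NeZero.ne p)]
  | some b => simp [amat, val_heckeMatrix (NeZero.ne p)]

/-- Consequences of the matrix identity `α γ = γ' β`. -/
theorem smul_smul_of_eq {p : ℕ} [NeZero p] {α β : Option (ZMod p)} {γ γ' : SL(2, ℤ)}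
    (h : amat p α * mapGL ℝ γ = mapGL ℝ γ' * amat p β) (z : ℍ) :
    amat p α • (γ • z) = γ' • (amat p β • z) ∧
      dlow p α * denom γ z = denom γ' ((amat p β • z : ℍ) : ℂ) * dlow p β := by
  constructor
  · show amat p α • ((mapGL ℝ γ) • z) = (mapGL ℝ γ') • (amat p β • z)
    rw [← mul_smul, h, mul_smul]
  · have h1 := denom_cocycle_σ (amat p α) (mapGL ℝ γ) z
    have h2 := denom_cocycle_σ (mapGL ℝ γ') (amat p β) z
    rw [h] at h1
    rw [h1] at h2
    have hσ1 : UpperHalfPlane.σ (mapGL ℝ γ) = .refl ℝ ℂ := by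
      rw [UpperHalfPlane.σ, if_pos]
      simp
    have hσ2 : UpperHalfPlane.σ (amat p β) = .refl ℝ ℂ := by
      rw [UpperHalfPlane.σ, if_pos (det_amat_pos p β)]
    rw [hσ1, hσ2, denom_amat, denom_amat] at h2
    simp only [ContinuousAlgEquiv.refl_apply] at h2
    exact h2

/-- The conjugates of `j`. -/
def xf (p : ℕ) (α : Option (ZMod p)) (z : ℍ) : ℂ := jf (amat p α • z)

/-- The conjugates of `Δ`, normalised: `p ^ 12 Δ(p z)` and `Δ((z + b) / p)`. -/
def kf (p : ℕ) (α : Option (ZMod p)) (z : ℍ) : ℂ :=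
  (p : ℂ) ^ 12 / dlow p α ^ 12 * Δ (amat p α • z)

theorem xf_smul {p : ℕ} [NeZero p] {α β : Option (ZMod p)} {γ γ' : SL(2, ℤ)}
    (h : amat p α * mapGL ℝ γ = mapGL ℝ γ' * amat p β) (z : ℍ) :
    xf p α (γ • z) = xf p β z := by
  unfold xf
  rw [(smul_smul_of_eq h z).1, jf_smul]

theorem kf_smul {p : ℕ} [NeZero p] {α β : Option (ZMod p)} {γ γ' : SL(2, ℤ)}
    (h : amat p α * mapGL ℝ γ = mapGL ℝ γ' * amat p β) (z : ℍ) :
    kf p α (γ • z) = denom γ z ^ 12 * kf p β z := by
  unfold kf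
  obtain ⟨h1, h2⟩ := smul_smul_of_eq h z
  rw [h1, disc_smul]
  have ha := dlow_ne_zero p α
  have hb := dlow_ne_zero p β
  have h3 : denom γ' ((amat p β • z : ℍ) : ℂ) = dlow p α * denom γ z / dlow p β := by
    rw [h2]; field_simp
  rw [h3]
  field_simp

/-! ### Holomorphy and boundedness -/

theorem comp_amat_eq (p : ℕ) [NeZero p] (α : Option (ZMod p)) (F : ℍ → ℂ) :
    (fun z => F (amat p α • z)) = dlow p α • (F ∣[(1 : ℤ)] amat p α) := by
  have hp : p ≠ 0 := NeZero.ne p
  have hp' : (p : ℂ) ≠ 0 := Nat.cast_ne_zero.mpr hp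
  funext z
  cases α with
  | none =>
    simp only [amat, dlow, Pi.smul_apply, smul_eq_mul, one_mul]
    rw [slash_heckeDiagMatrix_apply 1 hp]
    simp
  | some b =>
    simp only [amat, dlow, Pi.smul_apply, smul_eq_mul]
    rw [slash_heckeMatrix_apply 1 hp]
    field_simp

theorem mdiff_comp_amat (p : ℕ) [NeZero p] (α : Option (ZMod p)) {F : ℍ → ℂ} (hF : MDiff F) :
    MDiff (fun z => F (amat p α • z)) := by
  rw [comp_amat_eq]
  exact (hF.slash 1 (amat p α)).const_smul _

theorem bdd_comp_amat (p : ℕ) [NeZero p] (α : Option (ZMod p)) {F : ℍ → ℂ}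
    (hF : IsBoundedAtImInfty F) : IsBoundedAtImInfty (fun z => F (amat p α • z)) := by
  rw [comp_amat_eq]
  exact (IsBoundedAtImInfty.slash 1 (amat_one_zero p α) hF).const_smul_left _

theorem im_amat_smul_le (p : ℕ) [NeZero p] (α : Option (ZMod p)) (z : ℍ) :
    (amat p α • z).im ≤ p * z.im := by
  have hp : p ≠ 0 := NeZero.ne p
  have hp1 : (1 : ℝ) ≤ p := by exact_mod_cast NeZero.one_le
  have hz : 0 < z.im := z.im_pos
  cases α with
  | none =>
    have h := congrArg Complex.im (coe_heckeDiagMatrix_smul hp z)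
    simp only [amat]
    rw [UpperHalfPlane.coe_im] at h
    rw [h]
    simp
  | some b =>
    have h := congrArg Complex.im (coe_heckeMatrix_smul hp b.val z)
    simp only [amat]
    rw [UpperHalfPlane.coe_im] at h
    rw [h]
    have h2 : (((z : ℂ) + (b.val : ℂ)) / (p : ℂ)).im = z.im / p := by
      have : ((z : ℂ) + (b.val : ℂ)) / (p : ℂ) = ((z : ℂ) + ((b.val : ℝ) : ℂ)) / ((p : ℝ) : ℂ) := by
        push_cast; rfl
      rw [this, Complex.div_ofReal_im]
      simp
    rw [h2, div_le_iff₀ (by linarith)]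
    have h5 : z.im ≤ p * z.im := by nlinarith
    have h6 : p * z.im ≤ p * z.im * p := by nlinarith [mul_pos (by linarith : (0:ℝ) < p) hz]
    linarith

/-- `Δ ^ p = O(Δ ∘ α)` at `i∞`. -/
theorem disc_pow_isBigO_comp (p : ℕ) [NeZero p] (α : Option (ZMod p)) :
    (fun z : ℍ => Δ z ^ p) =O[atImInfty] fun z : ℍ => Δ (amat p α • z) := by
  have h1 : (fun z : ℍ => Δ z) =O[atImInfty] fun τ : ℍ => Real.exp (-2 * Real.pi * τ.im / 1) :=
    CuspFormClass.exp_decay_atImInfty (h := 1) CuspForm.discriminant one_pos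
      (by simp : (1 : ℝ) ∈ (𝒮ℒ : Subgroup (GL (Fin 2) ℝ)).strictPeriods)
  have h2 : (fun z : ℍ => Δ z ^ p) =O[atImInfty]
      fun τ : ℍ => Real.exp (-2 * Real.pi * τ.im / 1) ^ p := h1.pow p
  have h3 : (fun τ : ℍ => Real.exp (-2 * Real.pi * τ.im / 1) ^ p) =O[atImInfty]
      fun τ : ℍ => Real.exp (-2 * Real.pi * (amat p α • τ).im) := by
    refine IsBigO.of_bound 1 (Filter.Eventually.of_forall fun τ => ?_)
    rw [one_mul, Real.norm_of_nonneg (by positivity), Real.norm_of_nonneg (by positivity),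
      ← Real.exp_nat_mul]
    apply Real.exp_le_exp.mpr
    have h := im_amat_smul_le p α τ
    have hpi := Real.pi_pos
    have : (p : ℝ) * (-2 * Real.pi * τ.im / 1) = -2 * Real.pi * (p * τ.im) := by ring
    rw [this]
    nlinarith
  have h4 : (fun τ : ℍ => Real.exp (-2 * Real.pi * (amat p α • τ).im)) =O[atImInfty]
      fun τ : ℍ => Δ (amat p α • τ) :=
    exp_isBigO_discriminant.comp_tendsto (tendsto_smul_atImInfty (amat_one_zero p α))
  exact (h2.trans h3).trans h4

/-- The family `TT α = (j ∘ α) Δ^p`. -/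
def TT (p : ℕ) (α : Option (ZMod p)) (z : ℍ) : ℂ := xf p α z * Δ z ^ p

/-- The family `KK α = c_α (Δ ∘ α) Δ^(p-1)`. -/
def KK (p : ℕ) (α : Option (ZMod p)) (z : ℍ) : ℂ := kf p α z * Δ z ^ (p - 1)

theorem TT_eq (p : ℕ) (α : Option (ZMod p)) (z : ℍ) :
    TT p α z = E₄ (amat p α • z) ^ 3 * (Δ z ^ p / Δ (amat p α • z)) := by
  unfold TT xf jf
  ring

theorem TT_mem (p : ℕ) [NeZero p] (α : Option (ZMod p)) : TT p α ∈ h20_holBdd := by
  have hE : MDiff (fun z : ℍ => E₄ (amat p α • z)) := mdiff_comp_amat p α mdiff_E4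
  have hD : MDiff (fun z : ℍ => Δ (amat p α • z)) := mdiff_comp_amat p α mdiff_disc
  have hEb : IsBoundedAtImInfty (fun z : ℍ => E₄ (amat p α • z)) := bdd_comp_amat p α bdd_E4
  have hfun : TT p α = (fun z : ℍ => E₄ (amat p α • z)) ^ 3 *
      fun z : ℍ => Δ z ^ p / Δ (amat p α • z) := by
    funext z
    rw [TT_eq]
    rfl
  rw [hfun]
  refine ⟨(hE.pow 3).mul ((mdiff_disc.pow p).div hD fun z => discriminant_ne_zero _), ?_⟩
  have hq : IsBoundedAtImInfty (fun z : ℍ => Δ z ^ p / Δ (amat p α • z)) :=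
    (div_isBoundedUnder_of_isBigO (disc_pow_isBigO_comp p α)).isBigO_one ℝ
  have h3 : IsBoundedAtImInfty ((fun z : ℍ => E₄ (amat p α • z)) ^ 3) := by
    rw [pow_succ, pow_succ, pow_one]
    exact (hEb.mul hEb).mul hEb
  exact h3.mul hq

theorem kf_mem (p : ℕ) [NeZero p] (α : Option (ZMod p)) : kf p α ∈ h20_holBdd := by
  have hD : MDiff (fun z : ℍ => Δ (amat p α • z)) := mdiff_comp_amat p α mdiff_disc
  have hDb : IsBoundedAtImInfty (fun z : ℍ => Δ (amat p α • z)) := bdd_comp_amat p α bdd_disc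
  have hfun : kf p α = ((p : ℂ) ^ 12 / dlow p α ^ 12) • fun z : ℍ => Δ (amat p α • z) := by
    funext z
    rfl
  rw [hfun]
  exact ⟨hD.const_smul _, hDb.const_smul_left _⟩

theorem KK_mem (p : ℕ) [NeZero p] (α : Option (ZMod p)) : KK p α ∈ h20_holBdd := by
  have h1 := kf_mem p α
  have h2 : (fun z : ℍ => Δ z ^ (p - 1)) ∈ h20_holBdd := by
    have : (fun z : ℍ => Δ z ^ (p - 1)) = (Δ : ℍ → ℂ) ^ (p - 1) := rfl
    rw [this]
    have h0 : (Δ : ℍ → ℂ) ∈ h20_holBdd := ⟨mdiff_disc, bdd_disc⟩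
    exact Subalgebra.pow_mem _ h0 _
  exact Subalgebra.mul_mem _ h1 h2

end H23M

end
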