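import Fermat.Agent.H23.DeltaN

/-!
# helper23 (S28, WP1): the `p + 1` upper triangular matrices of determinant `p` and `SL(2,ℤ)`

For a prime `p`, the matrices `α_∞ = [[p,0],[0,1]]` and `α_b = [[1,b],[0,p]]` (`b ∈ ℤ/p`) represent
`SL(2,ℤ) \ {det = p}`: for every `γ ∈ SL(2,ℤ)` there is a permutation `σ` of the index set with
`α · γ = γ' · σ(α)` for suitable `γ' ∈ SL(2,ℤ)`.
-/

set_option autoImplicit false

noncomputable section

namespace H23M

open UpperHalfPlane ModularForm H23 Matrix.SpecialLinearGroup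
open scoped MatrixGroups

/-- The matrices `α_∞ = [[p,0],[0,1]]` (for `none`) and `α_b = [[1,b],[0,p]]` (for `some b`). -/
def amat (p : ℕ) : Option (ZMod p) → GL (Fin 2) ℝ
  | none => heckeDiagMatrix p
  | some b => heckeMatrix p b.val

/-- `γ` permutes the cosets `SL(2,ℤ) α`. -/
def PermCoset (p : ℕ) (γ : SL(2, ℤ)) : Prop :=
  ∃ σ : Equiv.Perm (Option (ZMod p)), ∀ α, ∃ γ' : SL(2, ℤ),
    amat p α * mapGL ℝ γ = mapGL ℝ γ' * amat p (σ α)

theorem permCoset_one (p : ℕ) : PermCoset p 1 :=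
  ⟨Equiv.refl _, fun α => ⟨1, by simp⟩⟩

theorem permCoset_mul (p : ℕ) {γ₁ γ₂ : SL(2, ℤ)} (h₁ : PermCoset p γ₁) (h₂ : PermCoset p γ₂) :
    PermCoset p (γ₁ * γ₂) := by
  obtain ⟨σ₁, h₁⟩ := h₁
  obtain ⟨σ₂, h₂⟩ := h₂
  refine ⟨σ₁.trans σ₂, fun α => ?_⟩
  obtain ⟨g₁, hg₁⟩ := h₁ α
  obtain ⟨g₂, hg₂⟩ := h₂ (σ₁ α)
  refine ⟨g₁ * g₂, ?_⟩
  rw [map_mul, ← mul_assoc, hg₁, mul_assoc, hg₂, map_mul, mul_assoc]
  rfl

theorem permCoset_inv (p : ℕ) {γ : SL(2, ℤ)} (h : PermCoset p γ) : PermCoset p γ⁻¹ := by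
  obtain ⟨σ, h⟩ := h
  refine ⟨σ.symm, fun β => ?_⟩
  obtain ⟨g, hg⟩ := h (σ.symm β)
  rw [Equiv.apply_symm_apply] at hg
  refine ⟨g⁻¹, ?_⟩
  rw [map_inv, map_inv, eq_inv_mul_iff_mul_eq, ← mul_assoc, ← hg, mul_assoc, mul_inv_cancel,
    mul_one]

/-- the value of `b + 1` in `ZMod p`, as an integer identity. -/
theorem exists_val_add_one (p : ℕ) [NeZero p] (b : ZMod p) :
    ∃ m : ℤ, (b.val : ℤ) + 1 = ((b + 1).val : ℤ) + p * m := by
  have h : (((b.val : ℤ) + 1 - ((b + 1).val : ℤ) : ℤ) : ZMod p) = 0 := by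
    push_cast
    simp
  obtain ⟨m, hm⟩ := (ZMod.intCast_zmod_eq_zero_iff_dvd _ p).mp h
  exact ⟨m, by linarith⟩

/-- for `b ≠ 0` in `ZMod p` (`p` prime), `b * (-b⁻¹) + 1 = 0`, as an integer identity. -/
theorem exists_val_mul_neg_inv (p : ℕ) [Fact p.Prime] (b : ZMod p) (hb : b ≠ 0) :
    ∃ m : ℤ, (b.val : ℤ) * ((-b⁻¹).val : ℤ) + 1 = p * m := by
  have h : (((b.val : ℤ) * ((-b⁻¹).val : ℤ) + 1 : ℤ) : ZMod p) = 0 := by
    push_cast
    simp only [ZMod.natCast_val, ZMod.cast_id', id_eq]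
    rw [mul_neg, mul_inv_cancel₀ hb]
    ring
  exact (ZMod.intCast_zmod_eq_zero_iff_dvd _ p).mp h

theorem mapGL_T_val :
    ((mapGL ℝ ModularGroup.T : GL (Fin 2) ℝ) : Matrix (Fin 2) (Fin 2) ℝ) = !![1, 1; 0, 1] := by
  rw [h12_mapGL_val]
  simp [ModularGroup.T]

theorem mapGL_S_val :
    ((mapGL ℝ ModularGroup.S : GL (Fin 2) ℝ) : Matrix (Fin 2) (Fin 2) ℝ) = !![0, -1; 1, 0] := by
  rw [h12_mapGL_val]
  simp [ModularGroup.S]

theorem permCoset_T (p : ℕ) [NeZero p] : PermCoset p ModularGroup.T := by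
  have hp : p ≠ 0 := NeZero.ne p
  refine ⟨Equiv.optionCongr (Equiv.addRight (1 : ZMod p)), fun α => ?_⟩
  cases α with
  | none =>
    refine ⟨h12_mkSL 1 p 0 1 (by ring), ?_⟩
    apply Units.ext
    simp only [amat, Equiv.optionCongr_apply, Option.map_none]
    rw [Units.val_mul, Units.val_mul, h12_mkSL_val, mapGL_T_val, val_heckeDiagMatrix hp]
    ext i j
    fin_cases i <;> fin_cases j <;> simp [Matrix.mul_apply, Fin.sum_univ_two]
  | some b =>
    obtain ⟨m, hm⟩ := exists_val_add_one p b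
    refine ⟨h12_mkSL 1 m 0 1 (by ring), ?_⟩
    apply Units.ext
    simp only [amat, Equiv.optionCongr_apply, Option.map_some, Equiv.coe_addRight]
    rw [Units.val_mul, Units.val_mul, h12_mkSL_val, mapGL_T_val, val_heckeMatrix hp,
      val_heckeMatrix hp]
    have hm' : ((b.val : ℝ)) + 1 = ((b + 1).val : ℝ) + p * m := by exact_mod_cast hm
    ext i j
    fin_cases i <;> fin_cases j <;>
      simp [Matrix.mul_apply, Fin.sum_univ_two, -ZMod.natCast_val]
    linarith

/-- The involution of `ℙ¹(𝔽_p)` induced by `S`. -/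
def sigmaS (p : ℕ) : Option (ZMod p) → Option (ZMod p)
  | none => some 0
  | some b => if b = 0 then none else some (-b⁻¹)

theorem sigmaS_involutive (p : ℕ) [Fact p.Prime] : Function.Involutive (sigmaS p) := by
  intro α
  cases α with
  | none => simp [sigmaS]
  | some b =>
    by_cases hb : b = 0
    · simp [sigmaS, hb]
    · have h1 : -b⁻¹ ≠ 0 := neg_ne_zero.mpr (inv_ne_zero hb)
      simp [sigmaS, hb, h1, inv_neg]

theorem permCoset_S (p : ℕ) [Fact p.Prime] : PermCoset p ModularGroup.S := by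
  have hp : p ≠ 0 := (Fact.out : p.Prime).ne_zero
  refine ⟨(sigmaS_involutive p).toPerm _, fun α => ?_⟩
  rw [Function.Involutive.coe_toPerm]
  cases α with
  | none =>
    refine ⟨ModularGroup.S, ?_⟩
    apply Units.ext
    simp only [amat, sigmaS, ZMod.val_zero]
    rw [Units.val_mul, Units.val_mul, mapGL_S_val, val_heckeDiagMatrix hp, val_heckeMatrix hp]
    ext i j
    fin_cases i <;> fin_cases j <;> simp [Matrix.mul_apply, Fin.sum_univ_two]
  | some b =>
    by_cases hb : b = 0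
    · subst hb
      refine ⟨ModularGroup.S, ?_⟩
      apply Units.ext
      simp only [amat, sigmaS, if_true, ZMod.val_zero]
      rw [Units.val_mul, Units.val_mul, mapGL_S_val, val_heckeDiagMatrix hp, val_heckeMatrix hp]
      ext i j
      fin_cases i <;> fin_cases j <;> simp [Matrix.mul_apply, Fin.sum_univ_two]
    · obtain ⟨m, hm⟩ := exists_val_mul_neg_inv p b hb
      refine ⟨h12_mkSL b.val (-m) p (-((-b⁻¹).val : ℤ)) (by linear_combination -hm), ?_⟩
      apply Units.ext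
      simp only [amat, sigmaS, hb, if_false]
      rw [Units.val_mul, Units.val_mul, h12_mkSL_val, mapGL_S_val, val_heckeMatrix hp,
        val_heckeMatrix hp]
      have hm' : ((b.val : ℝ)) * ((-b⁻¹).val : ℝ) + 1 = p * m := by exact_mod_cast hm
      ext i j
      fin_cases i <;> fin_cases j <;>
        simp [Matrix.mul_apply, Fin.sum_univ_two, -ZMod.natCast_val]
      · linarith
      · ring

/-- Every `γ ∈ SL(2,ℤ)` permutes the cosets. -/
theorem permCoset (p : ℕ) [Fact p.Prime] (γ : SL(2, ℤ)) : PermCoset p γ := by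
  have : NeZero p := ⟨(Fact.out : p.Prime).ne_zero⟩
  have hγ : γ ∈ Subgroup.closure ({ModularGroup.S, ModularGroup.T} : Set SL(2, ℤ)) := by
    rw [SpecialLinearGroup.SL2Z_generators]
    exact Subgroup.mem_top γ
  induction hγ using Subgroup.closure_induction with
  | mem x hx =>
    rcases hx with rfl | rfl
    · exact permCoset_S p
    · exact permCoset_T p
  | one => exact permCoset_one p
  | mul x y _ _ hx hy => exact permCoset_mul p hx hy
  | inv x _ hx => exact permCoset_inv p hx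

end H23M

end
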