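/-
S28 WP1 slice (D) (helper21): integrality of the coefficients of the modular-equation products.

For a prime `p` and a primitive `p`-th root of unity `ζ ∈ ℂ`, the polynomials
`∏ (X - x_i)`, `∏ (X - y_i)` and the Lagrange numerator `∑ y_i ∏_{i' ≠ i} (X - x_{i'})`
(`x_i = xconj ℂ p ζ i`, `y_i = yconj ℂ p ζ i`) have Laurent-series coefficients whose
coefficients are rational integers: they are algebraic integers fixed by `Aut(ℂ)`.
Also: a polynomial `c ∈ ℂ[X]` such that `c(J(s^N))` has integer coefficients lies in `ℤ[X]`.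
-/
import Mathlib
import Fermat.Agent.S28.Interface
import Fermat.Agent.S28.ModEq.ConjMap
import Fermat.Agent.H23.AutC

set_option autoImplicit false

open ModularCurve HahnSeries Polynomial H28S28

noncomputable section

namespace H23M

/-! ### Integral and `Aut(ℂ)`-fixed implies integer -/

theorem int_of_integral_of_fixed (x : ℂ) (h1 : IsIntegral ℤ x) (h2 : ∀ σ : ℂ ≃+* ℂ, σ x = x) :
    ∃ m : ℤ, x = (m : ℂ) := by
  obtain ⟨q, rfl⟩ := H23.exists_rat_of_forall_ringEquiv x h2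
  have hq : IsIntegral ℤ q := by
    have := (isIntegral_algebraMap_iff (R := ℤ) (A := ℚ) (B := ℂ) (x := q)
      (algebraMap ℚ ℂ).injective).mp (by simpa using h1)
    exact this
  obtain ⟨m, hm⟩ := IsIntegrallyClosed.algebraMap_eq_of_integral hq
  refine ⟨m, ?_⟩
  rw [← hm]
  simp

/-! ### Reindexing the conjugates by `b ↦ a b mod p` -/

section perm

variable (p : ℕ) [NeZero p]

/-- multiplication by `a` on the index set -/
def h21_mulIdx (a : ℕ) : Option (Fin p) → Option (Fin p) :=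
  Option.map fun b => ⟨(a * (b : ℕ)) % p, Nat.mod_lt _ (Nat.pos_of_ne_zero (NeZero.ne p))⟩

theorem h21_mulIdx_bijective {a : ℕ} (ha : Nat.Coprime a p) :
    Function.Bijective (h21_mulIdx p a) := by
  rw [← Finite.injective_iff_bijective]
  apply Option.map_injective
  intro b b' h
  have h' : (a * (b : ℕ)) % p = (a * (b' : ℕ)) % p := congrArg Fin.val h
  have h2 : (b : ℕ) ≡ (b' : ℕ) [MOD p] :=
    Nat.ModEq.cancel_left_of_coprime (by rw [Nat.gcd_comm]; exact ha) h'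
  apply Fin.ext
  have := Nat.ModEq.eq_of_lt_of_lt h2 b.2 b'.2
  exact this

variable {A : Type} [CommRing A]

theorem h21_xconj_pow (ζ : Aˣ) (hζ : ζ ^ p = 1) (a : ℕ) (i : Option (Fin p)) :
    xconj A p (ζ ^ a) i = xconj A p ζ (h21_mulIdx p a i) := by
  cases i with
  | none => rfl
  | some b =>
    simp only [xconj, h21_mulIdx, Option.map_some]
    rw [← pow_mul, pow_eq_pow_mod (a * (b : ℕ)) hζ]

theorem h21_yconj_pow (ζ : Aˣ) (hζ : ζ ^ p = 1) (a : ℕ) (i : Option (Fin p)) :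
    yconj A p (ζ ^ a) i = yconj A p ζ (h21_mulIdx p a i) := by
  cases i with
  | none => rfl
  | some b =>
    simp only [yconj, h21_mulIdx, Option.map_some]
    rw [← pow_mul, pow_eq_pow_mod (a * (b : ℕ)) hζ]

theorem h21_prod_xconj_pow (ζ : Aˣ) (hζ : ζ ^ p = 1) {a : ℕ} (ha : Nat.Coprime a p) :
    ∏ i : Option (Fin p), (X - Polynomial.C (xconj A p (ζ ^ a) i)) =
      ∏ i : Option (Fin p), (X - Polynomial.C (xconj A p ζ i)) := by
  simp only [h21_xconj_pow p ζ hζ a]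
  exact (h21_mulIdx_bijective p ha).prod_comp fun i => X - Polynomial.C (xconj A p ζ i)

theorem h21_prod_yconj_pow (ζ : Aˣ) (hζ : ζ ^ p = 1) {a : ℕ} (ha : Nat.Coprime a p) :
    ∏ i : Option (Fin p), (X - Polynomial.C (yconj A p (ζ ^ a) i)) =
      ∏ i : Option (Fin p), (X - Polynomial.C (yconj A p ζ i)) := by
  simp only [h21_yconj_pow p ζ hζ a]
  exact (h21_mulIdx_bijective p ha).prod_comp fun i => X - Polynomial.C (yconj A p ζ i)

theorem h21_lag_pow (ζ : Aˣ) (hζ : ζ ^ p = 1) {a : ℕ} (ha : Nat.Coprime a p) :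
    ∑ i : Option (Fin p), Polynomial.C (yconj A p (ζ ^ a) i) *
        ∏ i' ∈ Finset.univ.erase i, (X - Polynomial.C (xconj A p (ζ ^ a) i')) =
      ∑ i : Option (Fin p), Polynomial.C (yconj A p ζ i) *
        ∏ i' ∈ Finset.univ.erase i, (X - Polynomial.C (xconj A p ζ i')) := by
  simp only [h21_xconj_pow p ζ hζ a, h21_yconj_pow p ζ hζ a]
  have hbij := h21_mulIdx_bijective p ha
  let e : Option (Fin p) ≃ Option (Fin p) := Equiv.ofBijective _ hbij
  have he : ∀ i, e i = h21_mulIdx p a i := fun i => rfl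
  have key : ∀ i : Option (Fin p),
      ∏ i' ∈ Finset.univ.erase i, (X - Polynomial.C (xconj A p ζ (h21_mulIdx p a i'))) =
        ∏ j ∈ Finset.univ.erase (h21_mulIdx p a i), (X - Polynomial.C (xconj A p ζ j)) := by
    intro i
    refine Finset.prod_equiv e (fun i' => ?_) (fun i' _ => by rw [he])
    simp only [Finset.mem_erase, Finset.mem_univ, and_true, ne_eq, he]
    exact not_congr hbij.1.eq_iff.symm
  simp only [key]
  exact hbij.sum_comp fun j => Polynomial.C (yconj A p ζ j) *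
    ∏ j' ∈ Finset.univ.erase j, (X - Polynomial.C (xconj A p ζ j'))

end perm

/-! ### The general principle -/

/-- the ring of algebraic integers in `ℂ` and its inclusion -/
abbrev h21_Zbar : Subalgebra ℤ ℂ := integralClosure ℤ ℂ

/-- the inclusion of the algebraic integers into `ℂ` -/
def h21_incl : h21_Zbar →+* ℂ := (h21_Zbar.val : h21_Zbar →ₐ[ℤ] ℂ).toRingHom

theorem h21_coeff_int_of (P : Polynomial (LaurentSeries ℂ))
    (P₀ : Polynomial (LaurentSeries h21_Zbar)) (hP₀ : P₀.map (coeffMap h21_incl) = P)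
    (hfix : ∀ σ : ℂ ≃+* ℂ, P.map (coeffMap (σ : ℂ →+* ℂ)) = P) (n : ℕ) (k : ℤ) :
    ∃ m : ℤ, (P.coeff n).coeff k = (m : ℂ) := by
  apply int_of_integral_of_fixed
  · rw [← hP₀, Polynomial.coeff_map, coeffMap_coeff]
    exact ((P₀.coeff n).coeff k).2
  · intro σ
    have h := congrArg (fun Q : Polynomial (LaurentSeries ℂ) => (Q.coeff n).coeff k) (hfix σ)
    simp only [Polynomial.coeff_map, coeffMap_coeff] at h
    exact h

/-! ### The three integrality statements -/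

section main

variable (p : ℕ) [Fact p.Prime] (ζ : ℂˣ) (hζ : (cyclotomic p ℂ).eval (ζ : ℂ) = 0)

include hζ

theorem h21_isPrimitiveRoot : IsPrimitiveRoot (ζ : ℂ) p := by
  have : NeZero ((p : ℕ) : ℂ) := ⟨Nat.cast_ne_zero.mpr (Fact.out : p.Prime).ne_zero⟩
  exact Polynomial.isRoot_cyclotomic_iff.mp hζ

theorem h21_unit_pow_eq_one : ζ ^ p = 1 := by
  apply Units.ext
  rw [Units.val_pow_eq_pow_val, Units.val_one]
  exact (h21_isPrimitiveRoot p ζ hζ).pow_eq_one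

/-- every automorphism of `ℂ` maps `ζ` to a power `ζ ^ a` with `a` prime to `p` -/
theorem h21_exists_pow (σ : ℂ ≃+* ℂ) :
    ∃ a : ℕ, Nat.Coprime a p ∧ Units.map ((σ : ℂ →+* ℂ) : ℂ →* ℂ) ζ = ζ ^ a := by
  have hprim := h21_isPrimitiveRoot p ζ hζ
  have hσ : (σ (ζ : ℂ)) ^ p = 1 := by rw [← map_pow, hprim.pow_eq_one, map_one]
  obtain ⟨a, -, ha⟩ := hprim.eq_pow_of_pow_eq_one hσ
  have hprim' : IsPrimitiveRoot (σ (ζ : ℂ)) p := hprim.map_of_injective σ.injective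
  rw [← ha] at hprim'
  refine ⟨a, (hprim.pow_iff_coprime (Fact.out : p.Prime).pos a).mp hprim', ?_⟩
  apply Units.ext
  rw [Units.val_pow_eq_pow_val, ha]
  rfl

/-- `ζ` as a unit of the ring of algebraic integers -/
theorem h21_exists_unit_Zbar :
    ∃ ζ₀ : (h21_Zbar)ˣ, Units.map (h21_incl : h21_Zbar →* ℂ) ζ₀ = ζ := by
  have hprim := h21_isPrimitiveRoot p ζ hζ
  have hint : IsIntegral ℤ (ζ : ℂ) := hprim.isIntegral (Fact.out : p.Prime).pos
  have hint' : IsIntegral ℤ ((ζ : ℂ) ^ (p - 1)) := hint.pow _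
  have hmul : (⟨(ζ : ℂ), hint⟩ : h21_Zbar) * ⟨(ζ : ℂ) ^ (p - 1), hint'⟩ = 1 := by
    apply Subtype.ext
    change (ζ : ℂ) * (ζ : ℂ) ^ (p - 1) = 1
    rw [← pow_succ', Nat.sub_add_cancel (Fact.out : p.Prime).one_le, hprim.pow_eq_one]
  refine ⟨Units.mkOfMulEqOne _ _ hmul, ?_⟩
  apply Units.ext
  rfl

theorem prod_xconj_coeff_int (n : ℕ) (k : ℤ) :
    ∃ m : ℤ, ((∏ i : Option (Fin p), (X - Polynomial.C (xconj ℂ p ζ i))).coeff n).coeff k = (m : ℂ) := by
  obtain ⟨ζ₀, hζ₀⟩ := h21_exists_unit_Zbar p ζ hζ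
  refine h21_coeff_int_of _ (∏ i : Option (Fin p), (X - Polynomial.C (xconj h21_Zbar p ζ₀ i)))
    ?_ ?_ n k
  · rw [h21_map_prod_xconj, hζ₀]
  · intro σ
    obtain ⟨a, ha, hσ⟩ := h21_exists_pow p ζ hζ σ
    rw [h21_map_prod_xconj, hσ, h21_prod_xconj_pow p ζ (h21_unit_pow_eq_one p ζ hζ) ha]

theorem prod_yconj_coeff_int (n : ℕ) (k : ℤ) :
    ∃ m : ℤ, ((∏ i : Option (Fin p), (X - Polynomial.C (yconj ℂ p ζ i))).coeff n).coeff k = (m : ℂ) := by
  obtain ⟨ζ₀, hζ₀⟩ := h21_exists_unit_Zbar p ζ hζ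
  refine h21_coeff_int_of _ (∏ i : Option (Fin p), (X - Polynomial.C (yconj h21_Zbar p ζ₀ i)))
    ?_ ?_ n k
  · rw [h21_map_prod_yconj, hζ₀]
  · intro σ
    obtain ⟨a, ha, hσ⟩ := h21_exists_pow p ζ hζ σ
    rw [h21_map_prod_yconj, hσ, h21_prod_yconj_pow p ζ (h21_unit_pow_eq_one p ζ hζ) ha]

theorem lag_coeff_int (n : ℕ) (k : ℤ) :
    ∃ m : ℤ, ((∑ i : Option (Fin p), Polynomial.C (yconj ℂ p ζ i) *
      ∏ i' ∈ Finset.univ.erase i, (X - Polynomial.C (xconj ℂ p ζ i'))).coeff n).coeff k = (m : ℂ) := by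
  obtain ⟨ζ₀, hζ₀⟩ := h21_exists_unit_Zbar p ζ hζ
  refine h21_coeff_int_of _ (∑ i : Option (Fin p), Polynomial.C (yconj h21_Zbar p ζ₀ i) *
      ∏ i' ∈ Finset.univ.erase i, (X - Polynomial.C (xconj h21_Zbar p ζ₀ i'))) ?_ ?_ n k
  · rw [h21_map_lag, hζ₀]
  · intro σ
    obtain ⟨a, ha, hσ⟩ := h21_exists_pow p ζ hζ σ
    rw [h21_map_lag, hσ, h21_lag_pow p ζ (h21_unit_pow_eq_one p ζ hζ) ha]

end main

/-! ### Triangularity: `c(J(s^N))` integral implies `c ∈ ℤ[X]` -/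

section triangular

variable (N : ℕ) [NeZero N]

/-- all coefficients are rational integers -/
def h21_IntCoeffs (x : LaurentSeries ℂ) : Prop := ∀ k : ℤ, ∃ m : ℤ, x.coeff k = (m : ℂ)

theorem h21_IntCoeffs.sub {x y : LaurentSeries ℂ} (hx : h21_IntCoeffs x) (hy : h21_IntCoeffs y) :
    h21_IntCoeffs (x - y) := by
  intro k
  obtain ⟨m, hm⟩ := hx k
  obtain ⟨m', hm'⟩ := hy k
  exact ⟨m - m', by rw [HahnSeries.coeff_sub, hm, hm']; push_cast; rfl⟩

theorem h21_JN_pow_eq (i : ℕ) :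
    (qExpand ℂ N (jqModC ℂ)) ^ i =
      coeffMap (Int.castRingHom ℂ) ((qExpand ℤ N (jqModC ℤ)) ^ i) := by
  rw [map_pow, coeffMap_qExpand, coeffMap_jqModC]

theorem h21_intCoeffs_C_mul_JN_pow (m : ℤ) (i : ℕ) :
    h21_IntCoeffs (HahnSeries.C (m : ℂ) * (qExpand ℂ N (jqModC ℂ)) ^ i) := by
  intro k
  refine ⟨m * ((qExpand ℤ N (jqModC ℤ)) ^ i).coeff k, ?_⟩
  rw [HahnSeries.C_mul_eq_smul, HahnSeries.coeff_smul, h21_JN_pow_eq, coeffMap_coeff, smul_eq_mul]
  push_cast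
  rfl

theorem h21_coeff_JN_pow (i d : ℕ) (hid : i ≤ d) :
    ((qExpand ℂ N (jqModC ℂ)) ^ i).coeff (-((N : ℤ) * (d : ℤ))) = if i = d then 1 else 0 := by
  rw [← map_pow, show -((N : ℤ) * (d : ℤ)) = (N : ℤ) * (-(d : ℤ)) by ring, qExpand_coeff_mul]
  split_ifs with h
  · subst h
    exact coeff_jqModC_pow_self ℂ i
  · exact coeff_jqModC_pow_of_lt ℂ (by
      have : i < d := lt_of_le_of_ne hid h
      omega)

theorem h21_coeff_eval₂ (c : Polynomial ℂ) (d : ℕ) (hd : c.natDegree ≤ d) :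
    (Polynomial.eval₂ (HahnSeries.C : ℂ →+* LaurentSeries ℂ) (qExpand ℂ N (jqModC ℂ)) c).coeff
      (-((N : ℤ) * (d : ℤ))) = c.coeff d := by
  rw [Polynomial.eval₂_eq_sum_range' _ (Nat.lt_succ_of_le hd), HahnSeries.coeff_sum]
  rw [Finset.sum_eq_single d]
  · rw [HahnSeries.C_mul_eq_smul, HahnSeries.coeff_smul, h21_coeff_JN_pow N d d le_rfl, if_pos rfl,
      smul_eq_mul, mul_one]
  · intro i hi hne
    rw [HahnSeries.C_mul_eq_smul, HahnSeries.coeff_smul,
      h21_coeff_JN_pow N i d (Nat.lt_succ_iff.mp (Finset.mem_range.mp hi)), if_neg hne,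
      smul_zero]
  · intro h
    exact absurd (Finset.mem_range.mpr (Nat.lt_succ_self d)) h

theorem h21_poly_int_aux (d : ℕ) : ∀ c : Polynomial ℂ, c.natDegree ≤ d →
    h21_IntCoeffs (Polynomial.eval₂ (HahnSeries.C : ℂ →+* LaurentSeries ℂ)
      (qExpand ℂ N (jqModC ℂ)) c) →
    ∃ c' : Polynomial ℤ, c = c'.map (Int.castRingHom ℂ) := by
  induction d with
  | zero =>
    intro c hc h
    obtain ⟨m, hm⟩ := h (-((N : ℤ) * ((0 : ℕ) : ℤ)))
    rw [h21_coeff_eval₂ N c 0 hc] at hm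
    refine ⟨Polynomial.C m, ?_⟩
    rw [Polynomial.map_C, eq_intCast, ← hm]
    exact Polynomial.eq_C_of_natDegree_le_zero hc
  | succ d ih =>
    intro c hc h
    obtain ⟨m, hm⟩ := h (-((N : ℤ) * ((d + 1 : ℕ) : ℤ)))
    rw [h21_coeff_eval₂ N c (d + 1) hc] at hm
    set c₁ : Polynomial ℂ := c - Polynomial.C (m : ℂ) * X ^ (d + 1) with hc₁
    have hdeg : c₁.natDegree ≤ d := by
      rw [Polynomial.natDegree_le_iff_coeff_eq_zero]
      intro n hn
      rw [hc₁, Polynomial.coeff_sub, Polynomial.coeff_C_mul, Polynomial.coeff_X_pow]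
      rcases Nat.lt_or_ge (d + 1) n with h1 | h1
      · rw [if_neg (by omega), mul_zero, sub_zero]
        exact Polynomial.coeff_eq_zero_of_natDegree_lt (lt_of_le_of_lt hc h1)
      · have : n = d + 1 := by omega
        subst this
        rw [if_pos rfl, mul_one, hm, sub_self]
    have hev : h21_IntCoeffs (Polynomial.eval₂ (HahnSeries.C : ℂ →+* LaurentSeries ℂ)
        (qExpand ℂ N (jqModC ℂ)) c₁) := by
      rw [hc₁, Polynomial.eval₂_sub, Polynomial.eval₂_mul, Polynomial.eval₂_C,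
        Polynomial.eval₂_X_pow]
      exact h.sub (h21_intCoeffs_C_mul_JN_pow N m (d + 1))
    obtain ⟨c₁', hc₁'⟩ := ih c₁ hdeg hev
    refine ⟨c₁' + Polynomial.C m * X ^ (d + 1), ?_⟩
    rw [Polynomial.map_add, ← hc₁', Polynomial.map_mul, Polynomial.map_C, Polynomial.map_pow,
      Polynomial.map_X, eq_intCast, hc₁]
    ring

theorem poly_coeff_int_of_eval (c : Polynomial ℂ)
    (h : ∀ k : ℤ, ∃ m : ℤ, (Polynomial.eval₂ (HahnSeries.C : ℂ →+* LaurentSeries ℂ)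
      (qExpand ℂ N (jqModC ℂ)) c).coeff k = (m : ℂ)) :
    ∃ c' : Polynomial ℤ, c = c'.map (Int.castRingHom ℂ) :=
  h21_poly_int_aux N c.natDegree c le_rfl h

end triangular

end H23M
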