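import Fermat.Agent.S28.ModEq.EvC
import Fermat.Agent.S28.ModEq.Universal
import Fermat.Agent.S28.ModEq.Integral

/-!
# helper15 (S28, WP1, slice G): descent from the complex modular equations to `HasModEq p`

Input: polynomials `Φc Tc Gc ∈ ℂ[Y][X]` whose images under `Y ↦ J(s^p)` are the three products of
conjugates (helper23, `ModEq/ComplexMain.lean`), integrality of the Laurent coefficients of those
products (helper21, `ModEq/Integral.lean`) and the universality statement (helper22,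
`ModEq/Universal.lean`).  Output: `H28S28.HasModEq p`.
-/

set_option autoImplicit false
open ModularCurve HahnSeries Polynomial H28S28

noncomputable section

namespace H23M

section lead

variable {A : Type} [CommRing A]

/-- `x` has all coefficients below `n` zero and coefficient `a` at `n`. -/
def h15g_Lead (x : LaurentSeries A) (n : ℤ) (a : A) : Prop :=
  (∀ k : ℤ, k < n → x.coeff k = 0) ∧ x.coeff n = a

theorem h15g_Lead.mul {x y : LaurentSeries A} {n m : ℤ} {a b : A}
    (hx : h15g_Lead x n a) (hy : h15g_Lead y m b) : h15g_Lead (x * y) (n + m) (a * b) := by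
  have hsx : ∀ i ∈ x.support, n ≤ i := by
    intro i hi
    by_contra h
    exact hi (hx.1 i (not_le.mp h))
  have hsy : ∀ j ∈ y.support, m ≤ j := by
    intro j hj
    by_contra h
    exact hj (hy.1 j (not_le.mp h))
  constructor
  · intro k hk
    rw [HahnSeries.coeff_mul]
    refine Finset.sum_eq_zero (fun ij hij => ?_)
    rw [Finset.mem_antidiagonal] at hij
    have h1 := hsx _ hij.1
    have h2 := hsy _ hij.2.1
    omega
  · rw [HahnSeries.coeff_mul]
    rw [Finset.sum_eq_single (n, m)]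
    · rw [hx.2, hy.2]
    · intro ij hij hne
      rw [Finset.mem_antidiagonal] at hij
      have h1 := hsx _ hij.1
      have h2 := hsy _ hij.2.1
      exfalso
      apply hne
      ext <;> simp <;> omega
    · intro hnot
      rw [Finset.mem_antidiagonal] at hnot
      by_cases h1 : x.coeff n = 0
      · rw [h1, zero_mul]
      · by_cases h2 : y.coeff m = 0
        · rw [h2, mul_zero]
        · exact absurd ⟨h1, h2, rfl⟩ hnot

theorem h15g_Lead.neg {x : LaurentSeries A} {n : ℤ} {a : A}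
    (hx : h15g_Lead x n a) : h15g_Lead (-x) n (-a) := by
  constructor
  · intro k hk
    rw [HahnSeries.coeff_neg, hx.1 k hk, neg_zero]
  · rw [HahnSeries.coeff_neg, hx.2]

theorem h15g_Lead_one : h15g_Lead (1 : LaurentSeries A) 0 1 := by
  constructor
  · intro k hk
    rw [HahnSeries.coeff_one, if_neg (by omega)]
  · rw [HahnSeries.coeff_one, if_pos rfl]

theorem h15g_Lead_single (n : ℤ) (a : A) : h15g_Lead (HahnSeries.single n a) n a := by
  constructor
  · intro k hk
    rw [HahnSeries.coeff_single, if_neg (by omega)]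
  · rw [HahnSeries.coeff_single, if_pos rfl]

theorem h15g_Lead_ofPowerSeries (u : PowerSeries A) :
    h15g_Lead (HahnSeries.ofPowerSeries ℤ A u) 0 (PowerSeries.constantCoeff u) := by
  constructor
  · intro k hk
    exact ofPowerSeries_coeff_of_neg _ hk
  · have h := HahnSeries.ofPowerSeries_apply_coeff (Γ := ℤ) u 0
    rw [Nat.cast_zero] at h
    rw [h, PowerSeries.coeff_zero_eq_constantCoeff]

theorem h15g_Lead.prod {ι : Type} (s : Finset ι) (f : ι → LaurentSeries A) (n : ι → ℤ)
    (a : ι → A) (h : ∀ i ∈ s, h15g_Lead (f i) (n i) (a i)) :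
    h15g_Lead (∏ i ∈ s, f i) (∑ i ∈ s, n i) (∏ i ∈ s, a i) := by
  classical
  induction s using Finset.induction_on with
  | empty => simpa using h15g_Lead_one
  | insert i s hi ih =>
    rw [Finset.prod_insert hi, Finset.sum_insert hi, Finset.prod_insert hi]
    exact (h i (Finset.mem_insert_self i s)).mul
      (ih (fun j hj => h j (Finset.mem_insert_of_mem hj)))

theorem h15g_Lead_qExpand (N : ℕ) [NeZero N] {x : LaurentSeries A} {n : ℤ} {a : A}
    (hx : h15g_Lead x n a) : h15g_Lead (qExpand A N x) ((N : ℤ) * n) a := by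
  constructor
  · intro k hk
    by_cases hd : (N : ℤ) ∣ k
    · obtain ⟨k', rfl⟩ := hd
      rw [qExpand_coeff_mul]
      apply hx.1
      have hN : (0 : ℤ) < N := by exact_mod_cast Nat.pos_of_ne_zero (NeZero.ne N)
      exact lt_of_mul_lt_mul_left hk hN.le
    · exact qExpand_coeff_of_not_dvd N x hd
  · rw [qExpand_coeff_mul, hx.2]

theorem h15g_Lead_tw (ζ : Aˣ) {x : LaurentSeries A} {n : ℤ} {a : A}
    (hx : h15g_Lead x n a) : h15g_Lead (tw ζ x) n (((ζ ^ n : Aˣ) : A) * a) := by
  constructor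
  · intro k hk
    rw [tw_coeff, hx.1 k hk, mul_zero]
  · rw [tw_coeff, hx.2]

variable (A) in
theorem h15g_Lead_deltaq : h15g_Lead (deltaq A) 1 1 := by
  have h := (h15g_Lead_single 1 1).mul
    (h15g_Lead_ofPowerSeries (dedekindEtaUnit.map (Int.castRingHom A)))
  have hc : PowerSeries.constantCoeff (dedekindEtaUnit.map (Int.castRingHom A)) = 1 := by
    rw [← PowerSeries.coeff_zero_eq_constantCoeff_apply, PowerSeries.coeff_map,
      PowerSeries.coeff_zero_eq_constantCoeff_apply, constantCoeff_dedekindEtaUnit]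
    simp
  rw [hc, mul_one, add_zero] at h
  exact h

variable (A) in
theorem h15g_Lead_deltaqInv : h15g_Lead (deltaqInv A) (-1) 1 := by
  have h := (h15g_Lead_single (-1) 1).mul
    (h15g_Lead_ofPowerSeries (dedekindEtaUnitInv.map (Int.castRingHom A)))
  have hc : PowerSeries.constantCoeff (dedekindEtaUnitInv.map (Int.castRingHom A)) = 1 := by
    rw [← PowerSeries.coeff_zero_eq_constantCoeff_apply, PowerSeries.coeff_map,
      PowerSeries.coeff_zero_eq_constantCoeff_apply, constantCoeff_dedekindEtaUnitInv]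
    simp
  rw [hc, mul_one, add_zero] at h
  exact h

variable (A) in
theorem h15g_Lead_natCast_pow (p : ℕ) (e : ℕ) :
    h15g_Lead ((p : LaurentSeries A) ^ e) 0 ((p : A) ^ e) := by
  have h : ((p : LaurentSeries A) ^ e) = HahnSeries.single 0 ((p : A) ^ e) := by
    rw [← HahnSeries.C_apply, map_pow, map_natCast]
  rw [h]
  exact h15g_Lead_single 0 _

section yc

variable (p : ℕ) [NeZero p] (ζ : Aˣ)

/-- orders of the `yconj` -/
def h15g_ord : Option (Fin p) → ℤ
  | none => (p : ℤ) * p - p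
  | some _ => 1 - p

/-- leading coefficients of the `-yconj` -/
def h15g_lc : Option (Fin p) → A
  | none => -((p : A) ^ 12)
  | some b => -((ζ : A) ^ (b : ℕ))

theorem h15g_Lead_neg_yconj (i : Option (Fin p)) :
    h15g_Lead (-(yconj A p ζ i)) (h15g_ord p i) (h15g_lc p ζ i) := by
  cases i with
  | none =>
    have h := (((h15g_Lead_natCast_pow A p 12).mul
      (h15g_Lead_qExpand (p * p) (h15g_Lead_deltaq A))).mul
      (h15g_Lead_qExpand p (h15g_Lead_deltaqInv A))).neg
    have e1 : (0 : ℤ) + ((p * p : ℕ) : ℤ) * 1 + (p : ℤ) * (-1) = (p : ℤ) * p - p := by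
      push_cast; ring
    rw [e1, mul_one, mul_one] at h
    exact h
  | some b =>
    have h := (((h15g_Lead_tw (ζ ^ (b : ℕ)) (h15g_Lead_deltaq A))).mul
      (h15g_Lead_qExpand p (h15g_Lead_deltaqInv A))).neg
    have e1 : (1 : ℤ) + (p : ℤ) * (-1) = 1 - p := by ring
    rw [e1, mul_one, mul_one, zpow_one, Units.val_pow_eq_pow_val] at h
    exact h

omit [NeZero p] in
theorem h15g_sum_ord : ∑ i : Option (Fin p), h15g_ord p i = 0 := by
  rw [Fintype.sum_option]
  simp only [h15g_ord, Finset.sum_const, Finset.card_univ, Fintype.card_fin, nsmul_eq_mul]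
  ring

omit [NeZero p] in
theorem h15g_prod_lc_sq (hζ : ζ ^ p = 1) :
    (∏ i : Option (Fin p), h15g_lc p ζ i) ^ 2 = (((p : ℤ) ^ 12 : ℤ) : A) ^ 2 := by
  rw [Fintype.prod_option, mul_pow]
  simp only [h15g_lc]
  have h1 : (∏ b : Fin p, -((ζ : A) ^ (b : ℕ))) ^ 2 = 1 := by
    rw [← Finset.prod_pow]
    have : ∀ b : Fin p, (-((ζ : A) ^ (b : ℕ))) ^ 2 = ((ζ : A) ^ 2) ^ (b : ℕ) := by
      intro b
      rw [neg_sq, ← pow_mul, ← pow_mul, mul_comm]
    simp only [this]
    rw [Fin.prod_univ_eq_prod_range (fun b => ((ζ : A) ^ 2) ^ b) p,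
      Finset.prod_pow_eq_pow_sum, ← pow_mul, mul_comm 2, Finset.sum_range_id_mul_two,
      pow_mul]
    have hz : (ζ : A) ^ p = 1 := by
      rw [← Units.val_pow_eq_pow_val, hζ, Units.val_one]
    rw [hz, one_pow]
  rw [h1, mul_one, neg_sq]
  push_cast
  rfl

theorem h15g_Lead_prod_neg_yconj :
    h15g_Lead (∏ i : Option (Fin p), -(yconj A p ζ i)) 0 (∏ i : Option (Fin p), h15g_lc p ζ i) := by
  have h := h15g_Lead.prod Finset.univ (fun i => -(yconj A p ζ i)) (h15g_ord p) (h15g_lc p ζ)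
    (fun i _ => h15g_Lead_neg_yconj p ζ i)
  rw [h15g_sum_ord] at h
  exact h

end yc

end lead

section main

variable (p : ℕ) [NeZero p]

theorem h15g_evC_apply (c : Polynomial ℂ) :
    evC p c = Polynomial.eval₂ (HahnSeries.C : ℂ →+* LaurentSeries ℂ)
      (qExpand ℂ p (jqModC ℂ)) c := rfl

theorem h15g_evC_injective : Function.Injective (evC p) := by
  rw [injective_iff_map_eq_zero]
  intro c hc
  have h := h21_coeff_eval₂ p c c.natDegree le_rfl
  rw [← h15g_evC_apply, hc, HahnSeries.coeff_zero] at h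
  exact Polynomial.leadingCoeff_eq_zero.mp h.symm

theorem h15g_baseEval_injective : Function.Injective (baseEval ℂ p) := by
  rw [← evC_comp_map]
  exact (h15g_evC_injective p).comp (Polynomial.map_injective _ Int.cast_injective)

theorem h15g_exists_lift (Pc : Polynomial (Polynomial ℂ))
    (h : ∀ (n : ℕ) (k : ℤ), ∃ m : ℤ, ((Pc.map (evC p)).coeff n).coeff k = (m : ℂ)) :
    ∃ P : Polynomial (Polynomial ℤ), P.map (baseEval ℂ p) = Pc.map (evC p) := by
  have hl : Pc ∈ Polynomial.lifts (Polynomial.mapRingHom (Int.castRingHom ℂ)) := by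
    rw [Polynomial.lifts_iff_coeff_lifts]
    intro n
    obtain ⟨c', hc'⟩ := poly_coeff_int_of_eval p (Pc.coeff n) (fun k => by
      have := h n k
      rwa [Polynomial.coeff_map] at this)
    exact ⟨c', hc'.symm⟩
  obtain ⟨P, hP⟩ := (Polynomial.mem_lifts _).mp hl
  refine ⟨P, ?_⟩
  rw [← evC_comp_map, ← Polynomial.map_map, hP]

theorem h15g_monic_natDegree (P : Polynomial (Polynomial ℤ))
    (x : Option (Fin p) → LaurentSeries ℂ)
    (h : P.map (baseEval ℂ p) = ∏ i : Option (Fin p), (X - Polynomial.C (x i))) :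
    P.Monic ∧ P.natDegree = p + 1 := by
  have hinj := h15g_baseEval_injective p
  have hm : (P.map (baseEval ℂ p)).Monic := by
    rw [h]
    exact Polynomial.monic_prod_of_monic _ _ (fun i _ => Polynomial.monic_X_sub_C _)
  refine ⟨Polynomial.monic_of_injective hinj hm, ?_⟩
  rw [← Polynomial.natDegree_map_eq_of_injective hinj, h,
    Polynomial.natDegree_prod_of_monic _ _ (fun i _ => Polynomial.monic_X_sub_C _)]
  simp

theorem h15g_T_coeff_zero (T : Polynomial (Polynomial ℤ)) (ζ₀ : ℂˣ) (hζ₀ : ζ₀ ^ p = 1)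
    (hT : T.map (baseEval ℂ p) = ∏ i : Option (Fin p), (X - Polynomial.C (yconj ℂ p ζ₀ i))) :
    T.coeff 0 = Polynomial.C ((p : ℤ) ^ 12) ∨ T.coeff 0 = Polynomial.C (-(p : ℤ) ^ 12) := by
  set c := T.coeff 0 with hc
  have h0 : baseEval ℂ p c = ∏ i : Option (Fin p), -(yconj ℂ p ζ₀ i) := by
    have h1 : (T.map (baseEval ℂ p)).coeff 0 = baseEval ℂ p c := Polynomial.coeff_map _ _
    rw [← h1, hT, Polynomial.coeff_zero_eq_eval_zero, Polynomial.eval_prod]
    refine Finset.prod_congr rfl (fun i _ => ?_)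
    rw [Polynomial.eval_sub, Polynomial.eval_X, Polynomial.eval_C, zero_sub]
  have hL := h15g_Lead_prod_neg_yconj p ζ₀
  rw [← h0] at hL
  set cC : Polynomial ℂ := c.map (Int.castRingHom ℂ) with hcC
  have hev : baseEval ℂ p c =
      Polynomial.eval₂ (HahnSeries.C : ℂ →+* LaurentSeries ℂ) (qExpand ℂ p (jqModC ℂ)) cC := by
    rw [← evC_comp_map]
    rfl
  have hp0 : (0 : ℤ) < p := by exact_mod_cast Nat.pos_of_ne_zero (NeZero.ne p)
  have hdeg : cC.natDegree = 0 := by
    by_contra hd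
    have h1 := h21_coeff_eval₂ p cC cC.natDegree le_rfl
    have hneg : -((p : ℤ) * (cC.natDegree : ℤ)) < 0 := by
      have : (0 : ℤ) < cC.natDegree := by exact_mod_cast Nat.pos_of_ne_zero hd
      have := mul_pos hp0 this
      omega
    rw [← hev, hL.1 _ hneg] at h1
    have h2 : cC = 0 := Polynomial.leadingCoeff_eq_zero.mp h1.symm
    rw [h2, Polynomial.natDegree_zero] at hd
    exact hd rfl
  have h2 := h21_coeff_eval₂ p cC 0 (le_of_eq hdeg)
  rw [Nat.cast_zero, mul_zero, neg_zero, ← hev, hL.2] at h2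
  have hsq := h15g_prod_lc_sq p ζ₀ hζ₀
  rw [h2, hcC, Polynomial.coeff_map] at hsq
  have hsqZ : (c.coeff 0) ^ 2 = ((p : ℤ) ^ 12) ^ 2 := by
    have : (((c.coeff 0) ^ 2 : ℤ) : ℂ) = ((((p : ℤ) ^ 12) ^ 2 : ℤ) : ℂ) := by
      push_cast
      simpa using hsq
    exact_mod_cast this
  have hc0 : c = Polynomial.C (c.coeff 0) := by
    apply Polynomial.eq_C_of_natDegree_eq_zero
    rw [← Polynomial.natDegree_map_eq_of_injective (f := Int.castRingHom ℂ) Int.cast_injective c]
    exact hdeg
  rcases sq_eq_sq_iff_eq_or_eq_neg.mp hsqZ with h | h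
  · left
    rw [hc0, h]
  · right
    rw [hc0, h]

end main

/-- **Slice (G).** Descent from the complex polynomials to `HasModEq p`. -/
theorem hasModEq_of_complex_polys (p : ℕ) [Fact p.Prime] [NeZero p]
    (ζ₀ : ℂˣ) (hζ₀ : (Polynomial.cyclotomic p ℂ).eval (ζ₀ : ℂ) = 0)
    (Φc Tc Gc : Polynomial (Polynomial ℂ))
    (hΦ : Φc.map (evC p) = ∏ i : Option (Fin p), (X - Polynomial.C (xconj ℂ p ζ₀ i)))
    (hT : Tc.map (evC p) = ∏ i : Option (Fin p), (X - Polynomial.C (yconj ℂ p ζ₀ i)))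
    (hG : Gc.map (evC p) = ∑ i : Option (Fin p), Polynomial.C (yconj ℂ p ζ₀ i) *
            ∏ i' ∈ Finset.univ.erase i, (X - Polynomial.C (xconj ℂ p ζ₀ i'))) :
    H28S28.HasModEq p := by
  obtain ⟨Φ, hΦ'⟩ := h15g_exists_lift p Φc (fun n k => by
    rw [hΦ]
    exact prod_xconj_coeff_int p ζ₀ hζ₀ n k)
  obtain ⟨T, hT'⟩ := h15g_exists_lift p Tc (fun n k => by
    rw [hT]
    exact prod_yconj_coeff_int p ζ₀ hζ₀ n k)
  obtain ⟨G, hG'⟩ := h15g_exists_lift p Gc (fun n k => by
    rw [hG]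
    exact lag_coeff_int p ζ₀ hζ₀ n k)
  have hΦ2 := hΦ'.trans hΦ
  have hT2 := hT'.trans hT
  have hG2 := hG'.trans hG
  obtain ⟨hΦm, hΦd⟩ := h15g_monic_natDegree p Φ _ hΦ2
  obtain ⟨hTm, hTd⟩ := h15g_monic_natDegree p T _ hT2
  exact hasModEq_of_complex p Φ T G hΦm hΦd hTm hTd
    (h15g_T_coeff_zero p T ζ₀ (h21_unit_pow_eq_one p ζ₀ hζ₀) hT2) ζ₀ hζ₀ ⟨hΦ2, hT2, hG2⟩

end H23M

end
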