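import Fermat.Agent.S28.ModEq.Conj

/-!
# helper23 (S28, WP1): the symmetric functions of the conjugates are polynomials in `(E₄³, Δ)`
-/

set_option autoImplicit false

noncomputable section

namespace H23M

open UpperHalfPlane ModularForm H23 Matrix.SpecialLinearGroup Filter Asymptotics
open scoped MatrixGroups Manifold Topology

local notation "Δ" => ModularForm.discriminant

theorem TT_smul {p : ℕ} [NeZero p] {α β : Option (ZMod p)} {γ γ' : SL(2, ℤ)}
    (h : amat p α * mapGL ℝ γ = mapGL ℝ γ' * amat p β) (z : ℍ) :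
    TT p α (γ • z) = denom (γ : GL (Fin 2) ℝ) z ^ (12 * p) * TT p β z := by
  unfold TT
  rw [xf_smul h, disc_smul]
  have : denom (γ : GL (Fin 2) ℝ) z = denom γ z := rfl
  rw [this]
  ring

theorem KK_smul {p : ℕ} [NeZero p] {α β : Option (ZMod p)} {γ γ' : SL(2, ℤ)}
    (h : amat p α * mapGL ℝ γ = mapGL ℝ γ' * amat p β) (z : ℍ) :
    KK p α (γ • z) = denom (γ : GL (Fin 2) ℝ) z ^ (12 * p) * KK p β z := by
  unfold KK
  rw [kf_smul h, disc_smul]
  have : denom (γ : GL (Fin 2) ℝ) z = denom γ z := rfl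
  rw [this]
  have hp : 12 * p = 12 + 12 * (p - 1) := by
    have := NeZero.one_le (n := p)
    omega
  rw [hp, pow_add, mul_pow, ← pow_mul]
  ring

theorem TT_KK_perm (p : ℕ) [Fact p.Prime] (γ : SL(2, ℤ)) :
    ∃ σ : Equiv.Perm (Option (ZMod p)),
      (∀ α, TT p α ∣[((12 * p : ℕ) : ℤ)] γ = TT p (σ α)) ∧
      (∀ α, KK p α ∣[((12 * p : ℕ) : ℤ)] γ = KK p (σ α)) := by
  have : NeZero p := ⟨(Fact.out : p.Prime).ne_zero⟩
  obtain ⟨σ, hσ⟩ := permCoset p γ
  refine ⟨σ, fun α => ?_, fun α => ?_⟩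
  · obtain ⟨γ', h⟩ := hσ α
    exact h20_slash_of_pointwise fun z => TT_smul h z
  · obtain ⟨γ', h⟩ := hσ α
    exact h20_slash_of_pointwise fun z => KK_smul h z

theorem kf_perm (p : ℕ) [Fact p.Prime] (γ : SL(2, ℤ)) :
    ∃ σ : Equiv.Perm (Option (ZMod p)),
      ∀ α, kf p α ∣[((12 * 1 : ℕ) : ℤ)] γ = kf p (σ α) := by
  have : NeZero p := ⟨(Fact.out : p.Prime).ne_zero⟩
  obtain ⟨σ, hσ⟩ := permCoset p γ
  refine ⟨σ, fun α => ?_⟩
  obtain ⟨γ', h⟩ := hσ α
  refine h20_slash_of_pointwise fun z => ?_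
  rw [kf_smul h]

/-- The coefficients of the three basic polynomials are homogeneous polynomials in `(E₄³, Δ)`. -/
theorem exists_polys (p : ℕ) [Fact p.Prime] [NeZero p] :
    ∃ ψ θ g : ℕ → MvPolynomial (Fin 2) ℂ,
      (∀ n, (ψ n).IsHomogeneous (p * (p + 1 - n))) ∧
      (∀ n, (θ n).IsHomogeneous (p + 1 - n)) ∧
      (∀ n, (g n).IsHomogeneous (p * (p + 1 - n))) ∧
      ∀ (z : ℍ) (n : ℕ),
        (Lagrange.nodal Finset.univ (fun α => TT p α z)).coeff n =
          MvPolynomial.eval (pt2 z) (ψ n) ∧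
        (Lagrange.nodal Finset.univ (fun α => kf p α z)).coeff n =
          MvPolynomial.eval (pt2 z) (θ n) ∧
        (h20_lagNum (fun α => TT p α z) (fun α => KK p α z)).coeff n =
          MvPolynomial.eval (pt2 z) (g n) := by
  have hcard : Fintype.card (Option (ZMod p)) = p + 1 := by
    rw [Fintype.card_option, ZMod.card]
  obtain ⟨ψ, hψ, hψe⟩ := h20_exists_poly_nodal p (TT p) (TT_mem p)
    (fun γ => (TT_KK_perm p γ).imp fun σ h => h.1)
  obtain ⟨θ, hθ, hθe⟩ := h20_exists_poly_nodal 1 (kf p) (kf_mem p) (kf_perm p)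
  obtain ⟨g, hg, hge⟩ := h20_exists_poly_lagNum p (TT p) (KK p) (TT_mem p) (KK_mem p)
    (TT_KK_perm p)
  rw [hcard] at hψ hθ hg
  refine ⟨ψ, θ, g, hψ, fun n => ?_, hg, fun z n => ⟨hψe z n, hθe z n, hge z n⟩⟩
  have := hθ n
  rwa [one_mul] at this

end H23M

end
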