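import Fermat.Agent.H23.Rel
import Fermat.Agent.H23.DeltaN
import Fermat.Prelude.Thm_UpperHalfPlane_qCoeff_heckeT

/-!
# helper23 (S28, WP1, slice C): `q`-expansions of `F(N w)` and `F(w + x)`
-/

set_option autoImplicit false

noncomputable section

namespace H23M

open UpperHalfPlane ModularForm H23 H23.Rel Filter
open scoped MatrixGroups Manifold Topology Real

open P2MW.S_UpperHalfPlane_qCoeff_heckeT.M4cP1W2 in
theorem comp_diag_eq_slash (N : ℕ) [NeZero N] (F : ℍ → ℂ) :
    (fun w => F (heckeDiagMatrix N • w)) = F ∣[(1 : ℤ)] heckeDiagMatrix N := by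
  funext z
  rw [slash_heckeDiagMatrix_apply 1 (NeZero.ne N)]
  simp

open P2MW.S_UpperHalfPlane_qCoeff_heckeT.M4cP1W2 in
theorem nice_comp_diag (N : ℕ) [NeZero N] {F : ℍ → ℂ} (hF : Nice F) :
    Nice (fun w => F (heckeDiagMatrix N • w)) := by
  have hN : N ≠ 0 := NeZero.ne N
  refine ⟨?_, ?_, ?_⟩
  · rw [comp_diag_eq_slash]
    exact hF.1.slash 1 _
  · apply periodic_comp_ofComplex_of_vadd
    intro τ
    exact apply_eq_of_coe_eq_add_nat hF.2.1 N (coe_heckeDiagMatrix_smul_vadd hN τ)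
  · rw [comp_diag_eq_slash]
    exact hF.2.2.slash 1 (heckeDiagMatrix_one_zero N)

open P2MW.S_UpperHalfPlane_qCoeff_heckeT.M4cP1W2 in
theorem qExpansion_comp_diag_coeff (N : ℕ) [NeZero N] {F : ℍ → ℂ} (hF : Nice F) (n : ℕ) :
    (qExpansion 1 (fun w => F (heckeDiagMatrix N • w))).coeff n =
      if N ∣ n then (qExpansion 1 F).coeff (n / N) else 0 := by
  have hN : N ≠ 0 := NeZero.ne N
  have hs : ∀ τ : ℍ, HasSum (fun m : ℕ ↦
      (if N ∣ m then (qExpansion 1 F).coeff (m / N) else 0)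
        • Function.Periodic.qParam 1 τ ^ m) (F (heckeDiagMatrix N • τ)) := by
    intro τ
    have h := hasSum_diag hN hF.2.1 hF.1 hF.2.2 1 τ
    simp only [sub_self, zpow_zero, one_mul] at h
    convert h using 2 with m
    split_ifs <;> simp [ModularFormClass.qCoeff]
  have hnice := nice_comp_diag N hF
  exact (qExpansion_coeff_unique
    (ContinuousMap.mk (fun w => F (heckeDiagMatrix N • w)) hnice.1.continuous)
    one_pos (analyticAt_of_nice hnice) hs n).symm

theorem comp_T_eq_slash (x : ℝ) (F : ℍ → ℂ) :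
    (fun w => F (h12_T x • w)) = F ∣[(1 : ℤ)] h12_T x := by
  funext z
  rw [h12_slash_T_apply]

open P2MW.S_UpperHalfPlane_qCoeff_heckeT.M4cP1W2 in
theorem nice_comp_T (x : ℝ) {F : ℍ → ℂ} (hF : Nice F) :
    Nice (fun w => F (h12_T x • w)) := by
  refine ⟨?_, ?_, ?_⟩
  · rw [comp_T_eq_slash]
    exact hF.1.slash 1 _
  · apply periodic_comp_ofComplex_of_vadd
    intro τ
    refine apply_eq_of_coe_eq_add_nat hF.2.1 1 ?_
    rw [h12_T_coe_smul, h12_T_coe_smul, coe_vadd]
    push_cast
    ring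
  · rw [comp_T_eq_slash]
    exact hF.2.2.slash 1 (by simp [h12_T_val])

open P2MW.S_UpperHalfPlane_qCoeff_heckeT.M4cP1W2 in
theorem qExpansion_comp_T_coeff (x : ℝ) {F : ℍ → ℂ} (hF : Nice F) (n : ℕ) :
    (qExpansion 1 (fun w => F (h12_T x • w))).coeff n =
      Complex.exp (2 * π * Complex.I * x) ^ n * (qExpansion 1 F).coeff n := by
  have hs : ∀ τ : ℍ, HasSum (fun m : ℕ ↦
      (Complex.exp (2 * π * Complex.I * x) ^ m * (qExpansion 1 F).coeff m)
        • Function.Periodic.qParam 1 τ ^ m) (F (h12_T x • τ)) := by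
    intro τ
    have h := hasSum_qExpansion one_pos hF.2.1 hF.1 hF.2.2 (h12_T x • τ)
    have hq : Function.Periodic.qParam 1 ((h12_T x • τ : ℍ) : ℂ) =
        Complex.exp (2 * π * Complex.I * x) * Function.Periodic.qParam 1 τ := by
      rw [qParam_one, qParam_one, h12_T_coe_smul, ← Complex.exp_add]
      congr 1
      ring
    rw [hq] at h
    convert h using 2 with m
    simp only [smul_eq_mul]
    ring
  have hnice := nice_comp_T x hF
  exact (qExpansion_coeff_unique
    (ContinuousMap.mk (fun w => F (h12_T x • w)) hnice.1.continuous)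
    one_pos (analyticAt_of_nice hnice) hs n).symm

end H23M

end
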