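import Fermat.Agent.S28.ModEq.Integral
import Fermat.Agent.S28.ModEq.EvC
import Fermat.Agent.S28.ModEq.FormalJ

/-!
# helper23 (S28, WP1): the constant term of the modular-unit equation is `± p ^ 12`
-/

set_option autoImplicit false

noncomputable section

namespace H23M

open ModularCurve H28S28 Polynomial

/-- `x` has order `m` and leading coefficient `a ≠ 0`. -/
def HasLead (x : LaurentSeries ℂ) (m : ℤ) (a : ℂ) : Prop :=
  a ≠ 0 ∧ x.order = m ∧ x.leadingCoeff = a

namespace HasLead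

variable {x y : LaurentSeries ℂ} {m n : ℤ} {a b : ℂ}

theorem ne_zero (h : HasLead x m a) : x ≠ 0 :=
  HahnSeries.leadingCoeff_ne_zero.mp (by rw [h.2.2]; exact h.1)

theorem coeff_self (h : HasLead x m a) : x.coeff m = a := by
  have h2 := h.2.2
  rwa [HahnSeries.leadingCoeff_eq, h.2.1] at h2

theorem coeff_of_lt (h : HasLead x m a) {k : ℤ} (hk : k < m) : x.coeff k = 0 :=
  HahnSeries.coeff_eq_zero_of_lt_order (h.2.1 ▸ hk)

theorem of_coeff (ha : a ≠ 0) (h1 : x.coeff m = a) (h2 : ∀ k, k < m → x.coeff k = 0) :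
    HasLead x m a := by
  have hne0 : x.coeff m ≠ 0 := by rw [h1]; exact ha
  have hne : x ≠ 0 := HahnSeries.ne_zero_of_coeff_ne_zero hne0
  have horder : x.order = m := by
    refine le_antisymm (HahnSeries.order_le_of_coeff_ne_zero hne0) ?_
    by_contra hlt
    rw [not_le] at hlt
    exact hne (HahnSeries.coeff_order_eq_zero.mp (h2 _ hlt))
  exact ⟨ha, horder, by rw [HahnSeries.leadingCoeff_eq, horder, h1]⟩

theorem mul (hx : HasLead x m a) (hy : HasLead y n b) : HasLead (x * y) (m + n) (a * b) := by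
  have h1 : x.leadingCoeff * y.leadingCoeff ≠ 0 := by
    rw [hx.2.2, hy.2.2]; exact mul_ne_zero hx.1 hy.1
  refine ⟨mul_ne_zero hx.1 hy.1, ?_, ?_⟩
  · rw [HahnSeries.order_mul_of_ne_zero h1, hx.2.1, hy.2.1]
  · rw [HahnSeries.leadingCoeff_mul_of_ne_zero h1, hx.2.2, hy.2.2]

theorem one : HasLead (1 : LaurentSeries ℂ) 0 1 :=
  of_coeff one_ne_zero (by simp) (fun k hk => by
    rw [HahnSeries.coeff_one, if_neg (by omega)])

theorem pow (hx : HasLead x m a) (k : ℕ) : HasLead (x ^ k) (k * m) (a ^ k) := by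
  induction k with
  | zero => simpa using one
  | succ k ih =>
    rw [pow_succ, pow_succ]
    have := ih.mul hx
    convert this using 1
    push_cast
    ring

theorem prod {ι : Type*} (s : Finset ι) (f : ι → LaurentSeries ℂ) (d : ι → ℤ) (c : ι → ℂ)
    (h : ∀ i ∈ s, HasLead (f i) (d i) (c i)) :
    HasLead (∏ i ∈ s, f i) (∑ i ∈ s, d i) (∏ i ∈ s, c i) := by
  classical
  induction s using Finset.induction_on with
  | empty => simpa using one
  | insert i s hi ih =>
    rw [Finset.prod_insert hi, Finset.sum_insert hi, Finset.prod_insert hi]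
    exact (h i (Finset.mem_insert_self i s)).mul
      (ih fun j hj => h j (Finset.mem_insert_of_mem hj))

theorem C (ha : a ≠ 0) : HasLead (HahnSeries.C a) 0 a :=
  of_coeff ha (by rw [HahnSeries.C_apply, HahnSeries.coeff_single_same]) (fun k hk => by
    rw [HahnSeries.C_apply, HahnSeries.coeff_single_of_ne (by omega)])

theorem neg (hx : HasLead x m a) : HasLead (-x) m (-a) :=
  of_coeff (neg_ne_zero.mpr hx.1) (by rw [HahnSeries.coeff_neg, hx.coeff_self])
    (fun k hk => by rw [HahnSeries.coeff_neg, hx.coeff_of_lt hk, neg_zero])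

theorem qExpand (N : ℕ) [NeZero N] (hx : HasLead x m a) :
    HasLead (ModularCurve.qExpand ℂ N x) ((N : ℤ) * m) a := by
  refine of_coeff hx.1 (by rw [qExpand_coeff_mul]; exact hx.coeff_self) fun k hk => ?_
  by_cases hdvd : (N : ℤ) ∣ k
  · obtain ⟨j, rfl⟩ := hdvd
    rw [qExpand_coeff_mul]
    refine hx.coeff_of_lt ?_
    have hp : (0 : ℤ) < (N : ℤ) := by exact_mod_cast Nat.pos_of_ne_zero (NeZero.ne N)
    exact lt_of_mul_lt_mul_left hk hp.le
  · exact qExpand_coeff_of_not_dvd N x hdvd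

theorem tw (ζ : ℂˣ) (hx : HasLead x m a) :
    HasLead (H28S28.tw ζ x) m (((ζ ^ m : ℂˣ) : ℂ) * a) := by
  refine of_coeff (mul_ne_zero (Units.ne_zero _) hx.1) ?_ fun k hk => ?_
  · rw [tw_coeff, hx.coeff_self]
  · rw [tw_coeff, hx.coeff_of_lt hk, mul_zero]

end HasLead

theorem hasLead_deltaq : HasLead (deltaq ℂ) 1 1 := by
  refine HasLead.of_coeff one_ne_zero ?_ fun k hk => ?_
  · unfold deltaq
    rw [HahnSeries.coeff_single_mul, one_mul, sub_self,
      show (0 : ℤ) = ((0 : ℕ) : ℤ) from rfl, HahnSeries.ofPowerSeries_apply_coeff,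
      PowerSeries.coeff_map, PowerSeries.coeff_zero_eq_constantCoeff,
      constantCoeff_dedekindEtaUnit]
    simp
  · unfold deltaq
    rw [HahnSeries.coeff_single_mul, one_mul]
    exact ofPowerSeries_coeff_of_neg _ (by omega)

theorem hasLead_deltaqInv : HasLead (deltaqInv ℂ) (-1) 1 := by
  refine HasLead.of_coeff one_ne_zero ?_ fun k hk => ?_
  · unfold deltaqInv
    rw [HahnSeries.coeff_single_mul, one_mul, sub_self,
      show (0 : ℤ) = ((0 : ℕ) : ℤ) from rfl, HahnSeries.ofPowerSeries_apply_coeff,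
      PowerSeries.coeff_map, PowerSeries.coeff_zero_eq_constantCoeff,
      constantCoeff_dedekindEtaUnitInv]
    simp
  · unfold deltaqInv
    rw [HahnSeries.coeff_single_mul, one_mul]
    exact ofPowerSeries_coeff_of_neg _ (by omega)

/-- order of the `i`-th conjugate of the modular unit -/
def yOrd (p : ℕ) : Option (Fin p) → ℤ
  | none => (p : ℤ) * p - p
  | some _ => 1 - p

/-- leading coefficient of the `i`-th conjugate of the modular unit -/
def yLc (p : ℕ) (ζ : ℂˣ) : Option (Fin p) → ℂ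
  | none => (p : ℂ) ^ 12
  | some b => ((ζ ^ (b : ℕ) : ℂˣ) : ℂ)

theorem hasLead_yconj (p : ℕ) [NeZero p] (ζ : ℂˣ) (i : Option (Fin p)) :
    HasLead (yconj ℂ p ζ i) (yOrd p i) (yLc p ζ i) := by
  have hp : (p : ℂ) ≠ 0 := Nat.cast_ne_zero.mpr (NeZero.ne p)
  cases i with
  | none =>
    have h1 : HasLead ((p : LaurentSeries ℂ) ^ 12) 0 ((p : ℂ) ^ 12) := by
      have : ((p : LaurentSeries ℂ)) = HahnSeries.C (p : ℂ) := by
        rw [map_natCast]
      rw [this]
      simpa using (HasLead.C hp).pow 12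
    have h2 := (hasLead_deltaq).qExpand (p * p)
    have h3 := (hasLead_deltaqInv).qExpand p
    have := (h1.mul h2).mul h3
    simp only [yconj, yOrd, yLc]
    convert this using 1
    · push_cast; ring
    · ring
  | some b =>
    have h2 := (hasLead_deltaq).tw (ζ ^ (b : ℕ))
    have h3 := (hasLead_deltaqInv).qExpand p
    have := h2.mul h3
    simp only [yconj, yOrd, yLc]
    convert this using 1
    · ring
    · simp

theorem sum_yOrd (p : ℕ) : ∑ i : Option (Fin p), yOrd p i = 0 := by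
  rw [Fintype.sum_option]
  simp only [yOrd, Finset.sum_const, Finset.card_univ, Fintype.card_fin, nsmul_eq_mul]
  ring

theorem prod_neg_yLc_sq (p : ℕ) [NeZero p] (ζ : ℂˣ) (hζ : ζ ^ p = 1) :
    (∏ i : Option (Fin p), (-yLc p ζ i)) ^ 2 = ((p : ℂ) ^ 12) ^ 2 := by
  rw [Fintype.prod_option]
  simp only [yLc]
  rw [mul_pow, neg_sq, ← Finset.prod_pow]
  have h1 : ∀ b : Fin p, (-((ζ ^ (b : ℕ) : ℂˣ) : ℂ)) ^ 2 = ((ζ ^ (2 * (b : ℕ)) : ℂˣ) : ℂ) := by
    intro b
    rw [neg_sq, ← Units.val_pow_eq_pow_val, ← pow_mul, mul_comm]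
  rw [Finset.prod_congr rfl fun b _ => h1 b, ← Units.coe_prod, Finset.prod_pow_eq_pow_sum,
    ← Finset.mul_sum, Fin.sum_univ_eq_sum_range (fun i => i) p, mul_comm 2,
    Finset.sum_range_id_mul_two, pow_mul, hζ, one_pow, Units.val_one, mul_one]

theorem coeff_zero_prod_X_sub_C {R : Type*} [CommRing R] {ι : Type*} (s : Finset ι) (f : ι → R) :
    (∏ i ∈ s, (X - Polynomial.C (f i))).coeff 0 = ∏ i ∈ s, (-f i) := by
  rw [Polynomial.coeff_zero_eq_eval_zero, Polynomial.eval_prod]
  simp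

/-- **The constant term of the modular-unit equation is `± p ^ 12`.** -/
theorem T_coeff_zero (p : ℕ) [NeZero p] (ζ₀ : ℂˣ) (hζ₀ : ζ₀ ^ p = 1)
    (T : Polynomial (Polynomial ℤ))
    (hT : T.map (baseEval ℂ p) = ∏ i : Option (Fin p), (X - Polynomial.C (yconj ℂ p ζ₀ i))) :
    T.coeff 0 = Polynomial.C ((p : ℤ) ^ 12) ∨ T.coeff 0 = Polynomial.C (-(p : ℤ) ^ 12) := by
  set c : Polynomial ℤ := T.coeff 0 with hc
  -- the value of `c` at `j(q)`
  have hval : baseEval ℂ p c = ∏ i : Option (Fin p), (-yconj ℂ p ζ₀ i) := by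
    rw [hc, ← Polynomial.coeff_map, hT, coeff_zero_prod_X_sub_C]
  have hlead : HasLead (baseEval ℂ p c) 0 (∏ i : Option (Fin p), (-yLc p ζ₀ i)) := by
    rw [hval, ← sum_yOrd p]
    exact HasLead.prod _ _ _ _ fun i _ => (hasLead_yconj p ζ₀ i).neg
  -- pass to complex coefficients
  set cC : Polynomial ℂ := c.map (Int.castRingHom ℂ) with hcC
  have hev : baseEval ℂ p c =
      Polynomial.eval₂ (HahnSeries.C : ℂ →+* LaurentSeries ℂ) (qExpand ℂ p (jqModC ℂ)) cC := by
    rw [← evC_comp_map]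
    rfl
  have hinj : Function.Injective (Int.castRingHom ℂ) := Int.cast_injective
  have hdeg : cC.natDegree = 0 := by
    by_contra hd
    have h1 := h21_coeff_eval₂ p cC cC.natDegree le_rfl
    rw [← hev] at h1
    have hpos : (0 : ℤ) < (p : ℤ) * (cC.natDegree : ℤ) := by
      have hp : (0 : ℤ) < (p : ℤ) := by exact_mod_cast Nat.pos_of_ne_zero (NeZero.ne p)
      have hd' : (0 : ℤ) < (cC.natDegree : ℤ) := by exact_mod_cast Nat.pos_of_ne_zero hd
      exact mul_pos hp hd'
    rw [hlead.coeff_of_lt (by omega)] at h1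
    have hne : cC ≠ 0 := fun h0 => hd (by rw [h0, Polynomial.natDegree_zero])
    exact Polynomial.leadingCoeff_ne_zero.mpr hne h1.symm
  have hdeg' : c.natDegree = 0 := by
    rw [← hdeg, hcC, Polynomial.natDegree_map_eq_of_injective hinj]
  obtain ⟨c₀, hc₀⟩ : ∃ c₀ : ℤ, c = Polynomial.C c₀ :=
    ⟨c.coeff 0, Polynomial.eq_C_of_natDegree_eq_zero hdeg'⟩
  have h0 : ((c₀ : ℤ) : ℂ) = ∏ i : Option (Fin p), (-yLc p ζ₀ i) := by
    have h1 := hlead.coeff_self
    rw [hev, hcC, hc₀, Polynomial.map_C, Polynomial.eval₂_C, HahnSeries.C_apply,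
      HahnSeries.coeff_single_same] at h1
    simpa using h1
  have hsq : c₀ ^ 2 = ((p : ℤ) ^ 12) ^ 2 := by
    have := prod_neg_yLc_sq p ζ₀ hζ₀
    rw [← h0] at this
    exact_mod_cast this
  rw [hc₀]
  rcases sq_eq_sq_iff_eq_or_eq_neg.mp hsq with h | h
  · left; rw [h]
  · right; rw [h]

end H23M

end
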